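import Fermat.Agent.S48.ModL.Igusa.Inst
import Fermat.Agent.S48.ModL.Y.Ser

/-!
# S48 / MODL / [IY] : the hypotheses of the formal Igusa theorem for `lvlY M`, unconditionally
-/

set_option autoImplicit false
noncomputable section

open ModularCurve Polynomial CongruenceSubgroup
open scoped MatrixGroups
open Fermat.Agent.RED.Gauss Fermat.Agent.S24 Fermat.Agent.S28 Fermat.Agent.RED
open Fermat.Agent.S48.ModL.F Fermat.Agent.S48.ModL.Y

namespace Fermat.Agent.S48.ModL.Igusa

variable (M : ℕ) [NeZero M] (hM : 2 < M) (hM4 : ¬ M ∣ 4) (A : ValuationSubring Kb)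
variable {p : ℕ} [Fact p.Prime]

/-- **[IY]** -/
theorem exists_hyp_lvlY (hA : A.LiesOverPrime p) (hpM : ¬ p ∣ M) :
    ∃ (n : ℕ) (x : LaurentSeries A),
      Hyp (IsLocalRing.residue A) (qExpand A M (jqModC A)) ((lvlY M hM).FKf Kb) (GF M hM hM4)
        (toGF M hM hM4 ModularGroup.T) n x :=
  hyp_lvlY M hM hM4 A hA hpM
    (fun a ha => Ser.exists_iota_eq_yK hM (inv_natCast_mem A M hA hpM) a ha)
    (fun g hg => Ser.exists_pi_ne' hM _ hM4 (inv_natCast_mem A M hA hpM) g hg)

end Fermat.Agent.S48.ModL.Igusa
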