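import Mathlib

/-!
# S48 / MODL / [I] : abstract Igusa lemma (pure commutative algebra, Mathlib only)

`G` a finite group acting on a ring `B` with invariants `A₀`, `Q` a prime of `B` above a maximal
ideal `P` of `A₀`, `D = Stab_G Q` the decomposition group.

* `exists_stab_smul_eq` : if the residue class of `x ∈ B` is separable over `A₀/P` of degree at
  least the cardinality of the `G`-orbit of `x`, then `D` acts transitively on the orbit.
* `stab_eq_top` : (group theory) if moreover `T ∈ D`, `b T b⁻¹ ∈ D` for all `b ∈ Stab x` and `G` is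
  the normal closure of `T`, then `D = G`.
* `exists_linearIndependent` : if `D = G` and `G` acts faithfully on `B/Q` then `B/Q` contains
  `|G|` elements linearly independent over `A₀/P`.
* `igusa` : the three statements together, for `Q = ker (red : B → E)`, with elementary
  hypotheses and conclusions (no quotient rings).
-/

set_option autoImplicit false
set_option linter.style.haveILetI false
set_option linter.unusedSectionVars false

namespace Fermat.Agent.S48.ModL.Igusa

open Polynomial Pointwise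

section Quot

variable {A₀ B : Type*} [CommRing A₀] [CommRing B] [Algebra A₀ B]
  (G : Type*) [Group G] [Finite G] [MulSemiringAction G B] [SMulCommClass G A₀ B]
  [Algebra.IsInvariant A₀ B G]
  (P : Ideal A₀) (Q : Ideal B) [P.IsMaximal] [Q.IsMaximal] [Q.LiesOver P]

noncomputable local instance : Field (A₀ ⧸ P) := Ideal.Quotient.field P
noncomputable local instance : Field (B ⧸ Q) := Ideal.Quotient.field Q

/-- every root of the minimal polynomial of `mk x` is of the form `mk (g • x)` -/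
theorem exists_smul_of_root (x : B) (y : B ⧸ Q)
    (hy : aeval y (minpoly (A₀ ⧸ P) (Ideal.Quotient.mk Q x)) = 0) :
    ∃ g : G, y = Ideal.Quotient.mk Q (g • x) := by
  cases nonempty_fintype G
  obtain ⟨p, hp⟩ := Algebra.IsInvariant.charpoly_mem_lifts A₀ B G x
  have hp' : p.map (algebraMap A₀ B) = MulSemiringAction.charpoly G x := hp
  -- `p` mod `P` kills `mk x`
  have h1 : aeval (Ideal.Quotient.mk Q x) (p.map (Ideal.Quotient.mk P)) = 0 := by
    rw [aeval_def, eval₂_map]
    have : (algebraMap (A₀ ⧸ P) (B ⧸ Q)).comp (Ideal.Quotient.mk P) =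
        (Ideal.Quotient.mk Q).comp (algebraMap A₀ B) := by
      ext a; rfl
    rw [this, ← eval₂_map, hp', eval₂_hom, MulSemiringAction.eval_charpoly, map_zero]
  have h2 := minpoly.dvd _ _ h1
  obtain ⟨r, hr⟩ := h2
  have h3 : aeval y (p.map (Ideal.Quotient.mk P)) = 0 := by
    rw [hr, map_mul, hy, zero_mul]
  rw [aeval_def, eval₂_map] at h3
  have : (algebraMap (A₀ ⧸ P) (B ⧸ Q)).comp (Ideal.Quotient.mk P) =
      (Ideal.Quotient.mk Q).comp (algebraMap A₀ B) := by
    ext a; rfl
  rw [this, ← eval₂_map, hp', MulSemiringAction.charpoly_eq, eval₂_finsetProd,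
    Finset.prod_eq_zero_iff] at h3
  obtain ⟨g, -, hg⟩ := h3
  refine ⟨g, ?_⟩
  rw [eval₂_sub, eval₂_X, eval₂_C, sub_eq_zero] at hg
  exact hg

theorem exists_stab_smul_eq (x : B) (n : ℕ)
    (hcard : (MulAction.orbit G x).ncard ≤ n)
    (hsep : IsSeparable (A₀ ⧸ P) (Ideal.Quotient.mk Q x))
    (hdeg : n ≤ (minpoly (A₀ ⧸ P) (Ideal.Quotient.mk Q x)).natDegree) (g : G) :
    ∃ d ∈ MulAction.stabilizer G Q, d • x = g • x := by
  have hnorm : Normal (A₀ ⧸ P) (B ⧸ Q) := Ideal.IsFractionRing.normal G P Q (A₀ ⧸ P) (B ⧸ Q)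
  set m := minpoly (A₀ ⧸ P) (Ideal.Quotient.mk Q x) with hm
  have hint : IsIntegral (A₀ ⧸ P) (Ideal.Quotient.mk Q x) := hnorm.isIntegral _
  have hfin : (MulAction.orbit G x).Finite := Set.finite_range _
  -- the root set of `m`
  have hroots : (m.rootSet (B ⧸ Q)) ⊆ (Ideal.Quotient.mk Q) '' (MulAction.orbit G x) := by
    intro y hy
    obtain ⟨g, rfl⟩ := exists_smul_of_root G P Q x y ((mem_rootSet.mp hy).2)
    exact ⟨g • x, ⟨g, rfl⟩, rfl⟩
  have hcr : (m.rootSet (B ⧸ Q)).ncard = m.natDegree := by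
    rw [← card_rootSet_eq_natDegree (K := B ⧸ Q) hsep (hnorm.splits _), Set.ncard_eq_toFinset_card',
      Set.toFinset_card]
  have himfin : ((Ideal.Quotient.mk Q) '' (MulAction.orbit G x)).Finite := hfin.image _
  have h1 : ((Ideal.Quotient.mk Q) '' (MulAction.orbit G x)).ncard ≤ (MulAction.orbit G x).ncard :=
    Set.ncard_image_le hfin
  have h2 : (m.rootSet (B ⧸ Q)).ncard ≤ ((Ideal.Quotient.mk Q) '' (MulAction.orbit G x)).ncard :=
    Set.ncard_le_ncard hroots himfin
  have heq : m.rootSet (B ⧸ Q) = (Ideal.Quotient.mk Q) '' (MulAction.orbit G x) :=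
    Set.eq_of_subset_of_ncard_le hroots (by omega) himfin
  have hinj : Set.InjOn (Ideal.Quotient.mk Q) (MulAction.orbit G x) :=
    (Set.ncard_image_iff hfin).mp (by omega)
  -- `mk (g • x)` is a root of `m`
  have hg : Ideal.Quotient.mk Q (g • x) ∈ m.rootSet (B ⧸ Q) := by
    rw [heq]; exact ⟨g • x, ⟨g, rfl⟩, rfl⟩
  have hconj : IsConjRoot (A₀ ⧸ P) (Ideal.Quotient.mk Q (g • x)) (Ideal.Quotient.mk Q x) := by
    rw [isConjRoot_def]
    exact (minpoly.eq_of_irreducible_of_monic (minpoly.irreducible hint) (mem_rootSet.mp hg).2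
      (minpoly.monic hint)).symm
  obtain ⟨σ, hσ⟩ := isConjRoot_iff_exists_algEquiv.mp hconj
  obtain ⟨d, rfl⟩ := Ideal.Quotient.stabilizerHom_surjective G P Q σ
  refine ⟨d, d.2, hinj ⟨(d : G), rfl⟩ ⟨g, rfl⟩ ?_⟩
  rw [← hσ]
  exact (Ideal.Quotient.stabilizerHom_apply Q P G d x).symm

/-- If the decomposition group is everything and acts faithfully on the residue field, then the
residue field has degree at least `|G|`. -/
theorem exists_linearIndependent (hD : ∀ g : G, g • Q = Q)
    (hfaith : ∀ g : G, (∀ b : B, Ideal.Quotient.mk Q (g • b) = Ideal.Quotient.mk Q b) → g = 1) :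
    ∃ w : Fin (Nat.card G) → B,
      LinearIndependent (A₀ ⧸ P) (fun i => Ideal.Quotient.mk Q (w i)) := by
  cases nonempty_fintype G
  let φ : G →* ((B ⧸ Q) ≃ₐ[A₀ ⧸ P] (B ⧸ Q)) :=
    (Ideal.Quotient.stabilizerHom Q P G).comp
      { toFun := fun g => ⟨g, hD g⟩
        map_one' := rfl
        map_mul' := fun _ _ => rfl }
  have hφ : ∀ (g : G) (b : B), φ g (Ideal.Quotient.mk Q b) = Ideal.Quotient.mk Q (g • b) :=
    fun g b => Ideal.Quotient.stabilizerHom_apply Q P G ⟨g, hD g⟩ b
  letI : MulSemiringAction G (B ⧸ Q) := MulSemiringAction.compHom (B ⧸ Q) φ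
  have hsmul : ∀ (g : G) (y : B ⧸ Q), g • y = φ g y := fun _ _ => rfl
  haveI : FaithfulSMul G (B ⧸ Q) := by
    refine ⟨fun {g g'} h => ?_⟩
    have : g'⁻¹ * g = 1 := by
      apply hfaith
      intro b
      rw [← hφ, map_mul]
      show (φ g'⁻¹) (φ g (Ideal.Quotient.mk Q b)) = _
      have h1 := h (Ideal.Quotient.mk Q b)
      rw [hsmul, hsmul] at h1
      rw [h1, map_inv]
      exact (φ g').symm_apply_apply _
    exact (inv_mul_eq_one.mp this).symm
  have hrank := FixedPoints.finrank_eq_card G (B ⧸ Q)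
  rw [← Nat.card_eq_fintype_card] at hrank
  let b := Module.finBasisOfFinrankEq (FixedPoints.subfield G (B ⧸ Q)) (B ⧸ Q) hrank
  choose w hw using fun i => Ideal.Quotient.mk_surjective (b i)
  refine ⟨w, ?_⟩
  simp only [hw]
  rw [Fintype.linearIndependent_iff]
  intro c hc i
  have hfix : ∀ a : A₀ ⧸ P, algebraMap (A₀ ⧸ P) (B ⧸ Q) a ∈ FixedPoints.subfield G (B ⧸ Q) := by
    intro a g
    rw [hsmul]
    exact (φ g).commutes a
  have h1 := Fintype.linearIndependent_iff.mp b.linearIndependent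
    (fun i => ⟨algebraMap (A₀ ⧸ P) (B ⧸ Q) (c i), hfix (c i)⟩) (by
      rw [← hc]
      refine Finset.sum_congr rfl fun i _ => ?_
      rw [Algebra.smul_def, Algebra.smul_def]
      rfl) i
  have h2 : algebraMap (A₀ ⧸ P) (B ⧸ Q) (c i) = 0 := congrArg Subtype.val h1
  exact (map_eq_zero _).mp h2

end Quot

/-- Group theory. -/
theorem stab_eq_top {G X : Type*} [Group G] [MulAction G X] (D : Subgroup G) (T : G) (x : X)
    (htrans : ∀ g : G, ∃ d ∈ D, d • x = g • x)
    (hB : ∀ b : G, b • x = x → b * T * b⁻¹ ∈ D)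
    (hgen : Subgroup.normalClosure {T} = ⊤) : D = ⊤ := by
  rw [eq_top_iff, ← hgen, Subgroup.normalClosure, Subgroup.closure_le]
  intro y hy
  rw [Group.mem_conjugatesOfSet_iff] at hy
  obtain ⟨t, ht, hty⟩ := hy
  rw [Set.mem_singleton_iff] at ht
  subst ht
  obtain ⟨g, rfl⟩ := isConj_iff.mp hty
  obtain ⟨d, hd, hdx⟩ := htrans g
  have hb : (d⁻¹ * g) • x = x := by rw [mul_smul, ← hdx, inv_smul_smul]
  have := D.mul_mem (D.mul_mem hd (hB _ hb)) (D.inv_mem hd)
  have e : d * (d⁻¹ * g * t * (d⁻¹ * g)⁻¹) * d⁻¹ = g * t * g⁻¹ := by group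
  rw [e] at this
  exact this

section Main

variable {A₀ B E : Type*} [CommRing A₀] [CommRing B] [Algebra A₀ B] [Field E]
  (G : Type*) [Group G] [Finite G] [MulSemiringAction G B] [SMulCommClass G A₀ B]
  [Algebra.IsInvariant A₀ B G] (red : B →+* E)

theorem smul_ker_eq_of {g : G} (h : ∀ b, red b = 0 → red (g • b) = 0) :
    g • RingHom.ker red = RingHom.ker red := by
  apply smul_eq_of_smul_le
  intro b hb
  rw [Ideal.mem_pointwise_smul_iff_inv_smul_mem, RingHom.mem_ker] at hb
  rw [RingHom.mem_ker]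
  simpa using h _ hb

theorem red_smul_eq_zero_of {g : G} (h : g • RingHom.ker red = RingHom.ker red) (b : B)
    (hb : red b = 0) : red (g • b) = 0 := by
  have : g • b ∈ g • RingHom.ker red := Ideal.smul_mem_pointwise_smul_iff.mpr hb
  rwa [h] at this

/-- **Abstract Igusa lemma.** -/
theorem igusa
    (hfield : ∀ a : A₀, red (algebraMap A₀ B a) ≠ 0 →
      ∃ a' : A₀, red (algebraMap A₀ B (a * a')) = 1)
    (T : G) (hT : ∀ b, red b = 0 → red (T • b) = 0)
    (x : B) (n : ℕ) (hcard : (MulAction.orbit G x).ncard ≤ n)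
    (hdeg : ∀ p : A₀[X], p.natDegree < n →
      p.eval₂ (red.comp (algebraMap A₀ B)) (red x) = 0 → p.map (red.comp (algebraMap A₀ B)) = 0)
    (hsep : ∃ p : A₀[X], p.eval₂ (red.comp (algebraMap A₀ B)) (red x) = 0 ∧
      (derivative p).eval₂ (red.comp (algebraMap A₀ B)) (red x) ≠ 0)
    (hB : ∀ b : G, b • x = x → ∃ m : ℤ, b * T * b⁻¹ = T ^ m)
    (hgen : Subgroup.normalClosure {T} = ⊤)
    (hfaith : ∀ g : G, (∀ b, red (g • b) = red b) → g = 1) :
    (∀ (g : G) (b : B), red b = 0 → red (g • b) = 0) ∧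
    ∃ w : Fin (Nat.card G) → B, ∀ c : Fin (Nat.card G) → A₀,
      ∑ i, red (algebraMap A₀ B (c i)) * red (w i) = 0 →
        ∀ i, red (algebraMap A₀ B (c i)) = 0 := by
  set φ : A₀ →+* E := red.comp (algebraMap A₀ B) with hφ
  set Q : Ideal B := RingHom.ker red with hQ
  set P : Ideal A₀ := RingHom.ker φ with hP
  haveI hQp : Q.IsPrime := RingHom.ker_isPrime red
  haveI hPm : P.IsMaximal := by
    rw [Ideal.isMaximal_iff]
    refine ⟨fun h1 => ?_, fun J a hPJ ha haJ => ?_⟩
    · rw [hP, RingHom.mem_ker, map_one] at h1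
      exact one_ne_zero h1
    · obtain ⟨a', ha'⟩ := hfield a ha
      have h1 : 1 - a * a' ∈ P := by
        rw [hP, RingHom.mem_ker, map_sub, map_one, hφ, RingHom.comp_apply, ha', sub_self]
      have h2 : (1 - a * a') + a * a' ∈ J := J.add_mem (hPJ h1) (J.mul_mem_right _ haJ)
      simpa using h2
  haveI hlo : Q.LiesOver P := ⟨by rw [hP, hQ, hφ, Ideal.under_def, RingHom.comap_ker]⟩
  haveI hint : Algebra.IsIntegral A₀ B := Algebra.IsInvariant.isIntegral A₀ B G
  haveI hQm : Q.IsMaximal := by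
    apply Ideal.isMaximal_of_isIntegral_of_isMaximal_comap (R := A₀) Q
    have : Ideal.comap (algebraMap A₀ B) Q = P := by rw [hP, hQ, hφ, RingHom.comap_ker]
    rw [this]; exact hPm
  letI : Field (A₀ ⧸ P) := Ideal.Quotient.field P
  letI : Field (B ⧸ Q) := Ideal.Quotient.field Q
  let ιL : B ⧸ Q →+* E := RingHom.kerLift red
  have hιL : Function.Injective ιL := RingHom.kerLift_injective red
  have hιmk : ∀ b : B, ιL (Ideal.Quotient.mk Q b) = red b := fun b => RingHom.kerLift_mk red b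
  have hcomp : (ιL.comp (algebraMap (A₀ ⧸ P) (B ⧸ Q))).comp (Ideal.Quotient.mk P) = φ := by
    ext a
    exact hιmk _
  have heval : ∀ p : A₀[X], ιL (aeval (Ideal.Quotient.mk Q x) (p.map (Ideal.Quotient.mk P))) =
      p.eval₂ φ (red x) := by
    intro p
    rw [aeval_def, eval₂_map, hom_eval₂, hιmk, ← RingHom.comp_assoc, hcomp]
  have hxint : IsIntegral (A₀ ⧸ P) (Ideal.Quotient.mk Q x) :=
    (Ideal.IsFractionRing.normal G P Q (A₀ ⧸ P) (B ⧸ Q)).isIntegral _
  -- separability
  have hsep' : IsSeparable (A₀ ⧸ P) (Ideal.Quotient.mk Q x) := by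
    obtain ⟨p, hp0, hp1⟩ := hsep
    have h0 : aeval (Ideal.Quotient.mk Q x) (p.map (Ideal.Quotient.mk P)) = 0 := by
      apply hιL; rw [heval, hp0, map_zero]
    obtain ⟨r, hr⟩ := minpoly.dvd _ _ h0
    show (minpoly (A₀ ⧸ P) (Ideal.Quotient.mk Q x)).Separable
    rw [separable_iff_derivative_ne_zero (minpoly.irreducible hxint)]
    intro hd
    apply hp1
    rw [← heval, ← derivative_map, hr, derivative_mul, hd, zero_mul, zero_add, map_mul, minpoly.aeval,
      zero_mul, map_zero]
  -- degree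
  have hdeg' : n ≤ (minpoly (A₀ ⧸ P) (Ideal.Quotient.mk Q x)).natDegree := by
    by_contra hlt
    push Not at hlt
    obtain ⟨q, hq, hqd, hqm⟩ := lifts_and_natDegree_eq_and_monic
      (f := Ideal.Quotient.mk P) (p := minpoly (A₀ ⧸ P) (Ideal.Quotient.mk Q x))
      ((mem_lifts _).mpr (map_surjective _ Ideal.Quotient.mk_surjective _)) (minpoly.monic hxint)
    have h1 := hdeg q (by omega) (by rw [← heval, hq, minpoly.aeval, map_zero])
    exact (hqm.map φ).ne_zero h1
  have htop : MulAction.stabilizer G Q = ⊤ := by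
    refine stab_eq_top (MulAction.stabilizer G Q) T x
      (exists_stab_smul_eq G P Q x n hcard hsep' hdeg') ?_ hgen
    intro b hb
    obtain ⟨m, hm⟩ := hB b hb
    rw [hm]
    exact Subgroup.zpow_mem _ (smul_ker_eq_of G red hT) m
  have hD : ∀ g : G, g • Q = Q := fun g => by
    have : g ∈ MulAction.stabilizer G Q := by rw [htop]; trivial
    exact this
  refine ⟨fun g b hb => red_smul_eq_zero_of G red (hD g) b hb, ?_⟩
  obtain ⟨w, hw⟩ := exists_linearIndependent G P Q hD (by
    intro g hg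
    apply hfaith
    intro b
    rw [← hιmk, hg, hιmk])
  refine ⟨w, fun c hc i => ?_⟩
  have h1 := Fintype.linearIndependent_iff.mp hw (fun i => Ideal.Quotient.mk P (c i)) (by
    apply hιL
    rw [map_zero, map_sum, ← hc]
    refine Finset.sum_congr rfl fun i _ => ?_
    rw [Algebra.smul_def, map_mul, hιmk]
    rfl) i
  have h2 : c i ∈ P := Ideal.Quotient.eq_zero_iff_mem.mp h1
  exact h2

end Main

end Fermat.Agent.S48.ModL.Igusa
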