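import Fermat.Agent.RED.Gauss.Core
import Fermat.Agent.S48.ModL.Igusa.Abstract

/-!
# S48 / MODL / [I] : Igusa, formal core

`F ≤ L((t))` a field with an action of a finite group `G`, fixed field `L(J)`, `J ∈ A((t))`.
From the abstract Igusa lemma we produce a `RED.Gauss.CoreData π F |G| J w`, and show that `G`
preserves the Gauss valuation ring.
-/

set_option autoImplicit false
noncomputable section

open ModularCurve Polynomial
open Fermat.Agent.RED.Gauss

namespace Fermat.Agent.S48.ModL.Igusa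

variable {L : Type*} [Field L] {A : ValuationSubring L}
variable {k : Type*} [Field k] (π : A →+* k)

theorem evA_mul (J : LaurentSeries A) (p q : A[X]) : evA J (p * q) = evA J p * evA J q :=
  Polynomial.eval₂_mul _ _

theorem evA_one (J : LaurentSeries A) : evA J 1 = 1 := Polynomial.eval₂_one _ _

theorem evA_C (J : LaurentSeries A) (c : A) : evA J (C c) = HahnSeries.C c :=
  Polynomial.eval₂_C _ _

/-- `z` becomes integral after multiplication by a primitive polynomial in `J` -/
def IsInt (J : LaurentSeries A) (z : LaurentSeries L) : Prop :=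
  ∃ (q : A[X]) (a : LaurentSeries A), q.map π ≠ 0 ∧ iota A (evA J q) * z = iota A a

variable {π} {J : LaurentSeries A}

theorem isInt_iota (a : LaurentSeries A) : IsInt π J (iota A a) :=
  ⟨1, a, by rw [Polynomial.map_one]; exact one_ne_zero, by rw [evA_one, map_one, one_mul]⟩

theorem IsInt.mul {x y : LaurentSeries L} (hx : IsInt π J x) (hy : IsInt π J y) :
    IsInt π J (x * y) := by
  obtain ⟨q, a, hq, h⟩ := hx
  obtain ⟨q', a', hq', h'⟩ := hy
  refine ⟨q * q', a * a', by rw [Polynomial.map_mul]; exact mul_ne_zero hq hq', ?_⟩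
  rw [evA_mul, map_mul, map_mul, ← h, ← h']; ring

theorem IsInt.add {x y : LaurentSeries L} (hx : IsInt π J x) (hy : IsInt π J y) :
    IsInt π J (x + y) := by
  obtain ⟨q, a, hq, h⟩ := hx
  obtain ⟨q', a', hq', h'⟩ := hy
  refine ⟨q * q', a * evA J q' + a' * evA J q,
    by rw [Polynomial.map_mul]; exact mul_ne_zero hq hq', ?_⟩
  rw [evA_mul, map_mul, map_add, map_mul, map_mul, ← h, ← h']; ring

theorem IsInt.neg {x : LaurentSeries L} (hx : IsInt π J x) : IsInt π J (-x) := by
  obtain ⟨q, a, hq, h⟩ := hx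
  exact ⟨q, -a, hq, by rw [map_neg, ← h]; ring⟩

theorem isInt_zero : IsInt π J (0 : LaurentSeries L) := by
  simpa using isInt_iota (π := π) (J := J) 0

theorem isInt_one : IsInt π J (1 : LaurentSeries L) := by
  simpa using isInt_iota (π := π) (J := J) 1

theorem pi_evA_ne_zero_of (hJ : Transcendental k (pi π J)) {q : A[X]} (hq : q.map π ≠ 0) :
    pi π (evA J q) ≠ 0 := by
  rw [pi_evA]
  exact fun h => hq (transcendental_iff.mp hJ _ h)

theorem IsInt.mem_bigO (hJ : Transcendental k (pi π J)) {z : LaurentSeries L}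
    (h : IsInt π J z) : z ∈ bigO π := by
  obtain ⟨q, a, hq, h⟩ := h
  exact ⟨a, evA J q, pi_evA_ne_zero_of hJ hq, by rw [mul_comm]; exact h⟩

/-- normal form of a polynomial in `J` -/
theorem exists_norm_poly_of {g : L[X]} (hg : g ≠ 0) :
    ∃ (c : L) (p : A[X]), c ≠ 0 ∧ p.map π ≠ 0 ∧
      aeval (iota A J) g = algebraMap L (LaurentSeries L) c * iota A (evA J p) := by
  obtain ⟨c, p, hc, hp, ⟨_, hne⟩⟩ := exists_normalize π (fun _ : Unit => g) ⟨(), hg⟩
  refine ⟨c, p (), hc, hne, ?_⟩
  rw [iota_evA, hp (), map_mul, aeval_C, ← mul_assoc, ← map_mul, mul_inv_cancel₀ hc, map_one,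
    one_mul]

theorem aeval_iota_ne_zero_of (hJ : Transcendental k (pi π J)) {g : L[X]} (hg : g ≠ 0) :
    aeval (iota A J) g ≠ 0 := by
  obtain ⟨c, p, hc, hp, h⟩ := exists_norm_poly_of (π := π) (J := J) hg
  rw [h]
  refine mul_ne_zero ?_ (iota_ne_zero_of_pi_ne_zero π (pi_evA_ne_zero_of hJ hp))
  rw [Ne, map_eq_zero]; exact hc

/-- `z` is a rational function of `J` -/
def IsRat (J : LaurentSeries A) (z : LaurentSeries L) : Prop :=
  ∃ p q : L[X], q ≠ 0 ∧ aeval (iota A J) q * z = aeval (iota A J) p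

/-- normal form of a nonzero rational function of `J` -/
theorem IsRat.exists_norm (hJ : Transcendental k (pi π J)) {z : LaurentSeries L}
    (hz : IsRat J z) (hz0 : z ≠ 0) :
    ∃ (c : L) (P Q : A[X]), c ≠ 0 ∧ P.map π ≠ 0 ∧ Q.map π ≠ 0 ∧
      iota A (evA J Q) * z = algebraMap L (LaurentSeries L) c * iota A (evA J P) := by
  obtain ⟨p, q, hq, h⟩ := hz
  have hp : p ≠ 0 := by
    rintro rfl
    rw [map_zero] at h
    exact (mul_ne_zero (aeval_iota_ne_zero_of hJ hq) hz0) h
  obtain ⟨c, P, hc, hP, h1⟩ := exists_norm_poly_of (π := π) (J := J) hp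
  obtain ⟨c', Q, hc', hQ, h2⟩ := exists_norm_poly_of (π := π) (J := J) hq
  refine ⟨c'⁻¹ * c, P, Q, mul_ne_zero (inv_ne_zero hc') hc, hP, hQ, ?_⟩
  rw [h1, h2] at h
  have hcL : algebraMap L (LaurentSeries L) c' ≠ 0 := by rw [Ne, map_eq_zero]; exact hc'
  rw [map_mul, map_inv₀, mul_assoc, ← h]
  field_simp

theorem C_eq_cA (c : A) : (HahnSeries.C c : LaurentSeries A) = cA A c := rfl

/-- a rational function of `J` in the big Gauss ring has a primitive denominator -/
theorem IsRat.exists_int (hπ : Function.Surjective π) (hJ : Transcendental k (pi π J))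
    {z : LaurentSeries L} (hz : IsRat J z) (hzO : z ∈ bigO π) :
    ∃ (P Q : A[X]), Q.map π ≠ 0 ∧ iota A (evA J Q) * z = iota A (evA J P) := by
  by_cases hz0 : z = 0
  · exact ⟨0, 1, by rw [Polynomial.map_one]; exact one_ne_zero, by simp [hz0, evA]⟩
  obtain ⟨c, P, Q, hc, hP, hQ, h⟩ := hz.exists_norm hJ hz0
  have hcA : c ∈ A := by
    by_contra hcA
    have hc' : c⁻¹ ∈ A := (A.mem_or_inv_mem c).resolve_left hcA
    have h0 : π ⟨c⁻¹, hc'⟩ = 0 :=
      residue_eq_zero_of_inv_not_mem hπ hc' (by rwa [inv_inv])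
    -- `c⁻¹ Q(J) z = P(J)`
    have h1 : (⟨iota A (cA A ⟨c⁻¹, hc'⟩ * evA J Q), iota_mem_bigO π _⟩ : bigO π) * ⟨z, hzO⟩ =
        ⟨iota A (evA J P), iota_mem_bigO π _⟩ := by
      apply Subtype.ext
      show iota A (cA A ⟨c⁻¹, hc'⟩ * evA J Q) * z = iota A (evA J P)
      rw [map_mul, iota_cA, mul_assoc, h, ← mul_assoc, ← map_mul]
      simp [inv_mul_cancel₀ hc]
    have h2 := congrArg (bigRed π) h1
    rw [map_mul, bigRed_iota, bigRed_iota, map_mul, pi_cA, h0, map_zero, zero_mul, zero_mul] at h2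
    exact pi_evA_ne_zero_of hJ hP h2.symm
  refine ⟨C ⟨c, hcA⟩ * P, Q, hQ, ?_⟩
  rw [h, evA_mul, evA_C, C_eq_cA, map_mul, iota_cA]

/-- the inverse of a rational function of `J` with non-zero reduction -/
theorem IsRat.isInt_inv (hπ : Function.Surjective π) (hJ : Transcendental k (pi π J))
    {z : LaurentSeries L} (hz : IsRat J z) (hzO : z ∈ bigO π) (hred : bigRed π ⟨z, hzO⟩ ≠ 0) :
    IsInt π J z⁻¹ := by
  have hz0 : z ≠ 0 := by
    rintro rfl
    exact hred (map_zero (bigRed π))
  obtain ⟨c, P, Q, hc, hP, hQ, h⟩ := hz.exists_norm hJ hz0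
  have hcA : c⁻¹ ∈ A := by
    by_contra hcA
    have hc' : c ∈ A := (A.mem_or_inv_mem c).resolve_right hcA
    have h0 : π ⟨c, hc'⟩ = 0 := residue_eq_zero_of_inv_not_mem hπ hc' hcA
    apply hred
    rw [bigRed_eq π ⟨z, hzO⟩ (a := cA A ⟨c, hc'⟩ * evA J P) (b := evA J Q)
      (pi_evA_ne_zero_of hJ hQ) (by rw [map_mul, iota_cA, mul_comm]; exact h), map_mul, pi_cA, h0]
    simp
  refine ⟨P, cA A ⟨c⁻¹, hcA⟩ * evA J Q, hP, ?_⟩
  rw [map_mul, iota_cA]
  have hcL : algebraMap L (LaurentSeries L) c ≠ 0 := by rw [Ne, map_eq_zero]; exact hc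
  show _ = algebraMap L (LaurentSeries L) c⁻¹ * _
  rw [map_inv₀]
  field_simp
  rw [mul_comm, ← h, mul_comm]


/-! ### The ring `B` -/

section ring

variable (π) (F : IntermediateField L (LaurentSeries L))
variable (G : Type*) [Group G] [MulSemiringAction G F] (J)

/-- elements of `F` all of whose conjugates are integral up to a primitive polynomial in `J` -/
def ringB : Subring F where
  carrier := {x | ∀ g : G, IsInt π J ((g • x : F) : LaurentSeries L)}
  mul_mem' := fun {x y} hx hy g => by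
    rw [smul_mul']; exact (hx g).mul (hy g)
  one_mem' := fun g => by rw [smul_one]; exact isInt_one
  add_mem' := fun {x y} hx hy g => by
    rw [smul_add]; exact (hx g).add (hy g)
  zero_mem' := fun g => by rw [smul_zero]; exact isInt_zero
  neg_mem' := fun {x} hx g => by
    rw [smul_neg]; exact (hx g).neg

variable {π F G J}

theorem mem_ringB {x : F} :
    x ∈ ringB π J F G ↔ ∀ g : G, IsInt π J ((g • x : F) : LaurentSeries L) := Iff.rfl

instance actB : MulSemiringAction G (ringB π J F G) where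
  smul g x := ⟨g • (x : F), fun h => by rw [← mul_smul]; exact x.2 _⟩
  one_smul x := Subtype.ext (one_smul _ _)
  mul_smul g h x := Subtype.ext (mul_smul _ _ _)
  smul_zero g := Subtype.ext (smul_zero _)
  smul_add g x y := Subtype.ext (smul_add _ _ _)
  smul_one g := Subtype.ext (smul_one _)
  smul_mul g x y := Subtype.ext (smul_mul' _ _ _)

@[simp] theorem coe_smul_ringB (g : G) (x : ringB π J F G) :
    ((g • x : ringB π J F G) : F) = g • (x : F) := rfl

theorem isInt_coe (x : ringB π J F G) : IsInt π J ((x : F) : LaurentSeries L) := by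
  have := x.2 1
  rwa [one_smul] at this

/-- the reduction map on `B` -/
def redB (hJ : Transcendental k (pi π J)) : ringB π J F G →+* LaurentSeries k :=
  (bigRed π).comp
    { toFun := fun x => ⟨((x : F) : LaurentSeries L), (isInt_coe x).mem_bigO hJ⟩
      map_one' := rfl
      map_mul' := fun _ _ => rfl
      map_zero' := rfl
      map_add' := fun _ _ => rfl }

theorem redB_apply (hJ : Transcendental k (pi π J)) (x : ringB π J F G) :
    redB hJ x = bigRed π ⟨((x : F) : LaurentSeries L), (isInt_coe x).mem_bigO hJ⟩ := rfl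

theorem redB_of_iota (hJ : Transcendental k (pi π J)) (x : ringB π J F G) (a : LaurentSeries A)
    (h : ((x : F) : LaurentSeries L) = iota A a) : redB hJ x = pi π a := by
  rw [redB_apply, ← bigRed_iota π a]
  congr 1
  exact Subtype.ext h

instance invB : Algebra.IsInvariant (FixedPoints.subring (ringB π J F G) G) (ringB π J F G) G :=
  ⟨fun b hb => ⟨⟨b, hb⟩, rfl⟩⟩


theorem redB_mul_of (hJ : Transcendental k (pi π J)) (x : ringB π J F G) {a b : LaurentSeries A}
    (h : iota A b * ((x : F) : LaurentSeries L) = iota A a) : pi π b * redB hJ x = pi π a := by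
  have h1 : (⟨iota A b, iota_mem_bigO π _⟩ : bigO π) *
      ⟨((x : F) : LaurentSeries L), (isInt_coe x).mem_bigO hJ⟩ = ⟨iota A a, iota_mem_bigO π _⟩ :=
    Subtype.ext h
  have h2 := congrArg (bigRed π) h1
  rwa [map_mul, bigRed_iota, bigRed_iota] at h2

/-- `evA` as a ring homomorphism -/
def evH (J : LaurentSeries A) : A[X] →+* LaurentSeries A := Polynomial.eval₂RingHom HahnSeries.C J

theorem evH_apply (p : A[X]) : evH J p = evA J p := rfl

variable [SMulCommClass G L F]

/-- polynomials in `J`, as elements of `F` -/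
def polyF (hJF : iota A J ∈ F) : A[X] →+* F :=
  ((aeval (⟨iota A J, hJF⟩ : F) : L[X] →ₐ[L] F) : L[X] →+* F).comp (mapRingHom A.subtype)

theorem coe_polyF (hJF : iota A J ∈ F) (p : A[X]) :
    ((polyF hJF p : F) : LaurentSeries L) = iota A (evA J p) := by
  rw [iota_evA]
  show ((aeval (⟨iota A J, hJF⟩ : F) (p.map A.subtype) : F) : LaurentSeries L) = _
  have := Polynomial.aeval_algHom_apply F.val (⟨iota A J, hJF⟩ : F) (p.map A.subtype)
  exact this.symm

theorem smul_polyF (hJF : iota A J ∈ F)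
    (hfix : ∀ g : G, g • (⟨iota A J, hJF⟩ : F) = ⟨iota A J, hJF⟩) (g : G) (p : A[X]) :
    g • polyF hJF p = polyF hJF p := by
  show g • (aeval (⟨iota A J, hJF⟩ : F) (p.map A.subtype) : F) =
    (aeval (⟨iota A J, hJF⟩ : F) (p.map A.subtype) : F)
  have := Polynomial.aeval_algHom_apply (MulSemiringAction.toAlgHom L F g)
    (⟨iota A J, hJF⟩ : F) (p.map A.subtype)
  rw [MulSemiringAction.toAlgHom_apply, MulSemiringAction.toAlgHom_apply, hfix g] at this
  exact this.symm

/-- polynomials in `J`, as invariant elements of `B` -/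
def polyB (hJF : iota A J ∈ F)
    (hfix : ∀ g : G, g • (⟨iota A J, hJF⟩ : F) = ⟨iota A J, hJF⟩) :
    A[X] →+* FixedPoints.subring (ringB π J F G) G :=
  ((polyF hJF).codRestrict (ringB π J F G) (fun p g => by
    rw [smul_polyF hJF hfix, coe_polyF]; exact isInt_iota _)).codRestrict _
    (fun p g => Subtype.ext (smul_polyF hJF hfix g p))

theorem coe_polyB (hJF : iota A J ∈ F)
    (hfix : ∀ g : G, g • (⟨iota A J, hJF⟩ : F) = ⟨iota A J, hJF⟩) (p : A[X]) :
    ((((polyB (π := π) hJF hfix p : FixedPoints.subring (ringB π J F G) G) :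
      ringB π J F G) : F) : LaurentSeries L) = iota A (evA J p) := coe_polyF hJF p

theorem redB_polyB (hJ : Transcendental k (pi π J)) (hJF : iota A J ∈ F)
    (hfix : ∀ g : G, g • (⟨iota A J, hJF⟩ : F) = ⟨iota A J, hJF⟩) (p : A[X]) :
    redB hJ (algebraMap (FixedPoints.subring (ringB π J F G) G) (ringB π J F G)
      (polyB hJF hfix p)) = pi π (evA J p) :=
  redB_of_iota hJ _ _ (coe_polyB hJF hfix p)

variable (π J F G) in
/-- the hypotheses of the formal Igusa theorem -/
structure Hyp (T : G) (n : ℕ) (x : LaurentSeries A) : Prop where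
  surj : Function.Surjective π
  tr : Transcendental k (pi π J)
  J_mem : iota A J ∈ F
  J_fix : ∀ g : G, g • (⟨iota A J, J_mem⟩ : F) = ⟨iota A J, J_mem⟩
  fix : ∀ y : F, (∀ g : G, g • y = y) → IsRat J (y : LaurentSeries L)
  T_red : ∀ y : ringB π J F G, redB tr y = 0 → redB tr (T • y) = 0
  x_mem : iota A x ∈ F
  x_int : ∀ g : G, IsInt π J ((g • (⟨iota A x, x_mem⟩ : F) : F) : LaurentSeries L)
  card : (MulAction.orbit G (⟨iota A x, x_mem⟩ : F)).ncard ≤ n
  deg : ∀ f : Fin n → k[X], ∑ i, aeval (pi π J) (f i) * pi π x ^ (i : ℕ) = 0 → ∀ i, f i = 0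
  sep : ∃ p : A[X][X], p.eval₂ (evH J) x = 0 ∧ pi π ((derivative p).eval₂ (evH J) x) ≠ 0
  stab : ∀ b : G, b • (⟨iota A x, x_mem⟩ : F) = ⟨iota A x, x_mem⟩ → ∃ m : ℤ, b * T * b⁻¹ = T ^ m
  gen : Subgroup.normalClosure {T} = ⊤
  faith : ∀ g : G, g ≠ 1 → ∃ y : ringB π J F G, redB tr (g • y) ≠ redB tr y

namespace Hyp

variable {T : G} {n : ℕ} {x : LaurentSeries A} (H : Hyp π J F G T n x)
include H

/-- invariant elements of `B` reduce to rational functions of `pi J` -/
theorem exists_frac (a : FixedPoints.subring (ringB π J F G) G) :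
    ∃ P Q : A[X], Q.map π ≠ 0 ∧
      aeval (pi π J) (Q.map π) * redB H.tr (algebraMap _ (ringB π J F G) a) =
        aeval (pi π J) (P.map π) := by
  have hrat : IsRat J (((a : ringB π J F G) : F) : LaurentSeries L) :=
    H.fix _ (fun g => congrArg Subtype.val (a.2 g))
  obtain ⟨P, Q, hQ, h⟩ := hrat.exists_int H.surj H.tr ((isInt_coe (a : ringB π J F G)).mem_bigO H.tr)
  refine ⟨P, Q, hQ, ?_⟩
  rw [← pi_evA, ← pi_evA]
  exact redB_mul_of H.tr _ h

theorem field (a : FixedPoints.subring (ringB π J F G) G)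
    (ha : redB H.tr (algebraMap _ (ringB π J F G) a) ≠ 0) :
    ∃ a' : FixedPoints.subring (ringB π J F G) G,
      redB H.tr (algebraMap _ (ringB π J F G) (a * a')) = 1 := by
  have hfixa : ∀ g : G, g • ((a : ringB π J F G) : F) = ((a : ringB π J F G) : F) :=
    fun g => congrArg Subtype.val (a.2 g)
  have hrat : IsRat J (((a : ringB π J F G) : F) : LaurentSeries L) := H.fix _ hfixa
  have hinv := hrat.isInt_inv H.surj H.tr ((isInt_coe (a : ringB π J F G)).mem_bigO H.tr) ha
  have ha0 : ((a : ringB π J F G) : F) ≠ 0 := by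
    intro h0
    apply ha
    have : (algebraMap _ (ringB π J F G) a) = 0 := Subtype.ext h0
    rw [this, map_zero]
  have hfixi : ∀ g : G, g • (((a : ringB π J F G) : F))⁻¹ = (((a : ringB π J F G) : F))⁻¹ :=
    fun g => by rw [smul_inv'', hfixa]
  refine ⟨⟨⟨(((a : ringB π J F G) : F))⁻¹, fun g => by rw [hfixi]; exact hinv⟩,
    fun g => Subtype.ext (hfixi g)⟩, ?_⟩
  have : a * ⟨⟨(((a : ringB π J F G) : F))⁻¹, fun g => by rw [hfixi]; exact hinv⟩,
    fun g => Subtype.ext (hfixi g)⟩ = 1 :=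
    Subtype.ext (Subtype.ext (mul_inv_cancel₀ ha0))
  rw [this, map_one, map_one]

end Hyp

end ring

end Fermat.Agent.S48.ModL.Igusa
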