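import Fermat.Agent.S48.ModL.Igusa.Main

/-!
# S48 / MODL / [I] : Igusa, formal core : `CoreData`
-/

set_option autoImplicit false
noncomputable section

open ModularCurve Polynomial
open Fermat.Agent.RED.Gauss

namespace Fermat.Agent.S48.ModL.Igusa

variable {L : Type*} [Field L] {A : ValuationSubring L}
variable {k : Type*} [Field k] {π : A →+* k} {J : LaurentSeries A}

/-- independence of the reductions over `k[pi J]` implies independence over `L[J]` -/
theorem indep_lift {n : ℕ} {a : Fin n → LaurentSeries A}
    (hind : ∀ f : Fin n → k[X], ∑ i, aeval (pi π J) (f i) * pi π (a i) = 0 → ∀ i, f i = 0)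
    (f : Fin n → L[X]) (h : ∑ i, aeval (iota A J) (f i) * iota A (a i) = 0) : ∀ i, f i = 0 := by
  by_contra hcon
  push Not at hcon
  obtain ⟨c, p, hc, hp, i, hi⟩ := exists_normalize π f hcon
  have h1 : ∑ i, evA J (p i) * a i = 0 := by
    apply iota_injective A
    rw [map_sum, map_zero, ← mul_zero (algebraMap L (LaurentSeries L) c⁻¹), ← h, Finset.mul_sum]
    refine Finset.sum_congr rfl fun i _ => ?_
    rw [map_mul, iota_evA, hp i, map_mul, aeval_C, mul_assoc]
  have h2 := congrArg (pi π) h1
  rw [map_sum, map_zero] at h2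
  refine hi (hind (fun i => (p i).map π) ?_ i)
  rw [← h2]
  exact Finset.sum_congr rfl fun i _ => by rw [map_mul, pi_evA]

/-- common denominator -/
theorem exists_common_den {n : ℕ} (c : Fin n → LaurentSeries L) (hc : ∀ i, IsRat J (c i)) :
    ∃ (g : L[X]) (f : Fin n → L[X]), g ≠ 0 ∧
      ∀ i, aeval (iota A J) (f i) = aeval (iota A J) g * c i := by
  classical
  choose p r hr h using hc
  refine ⟨∏ j, r j, fun i => p i * ∏ j ∈ Finset.univ.erase i, r j,
    Finset.prod_ne_zero_iff.mpr fun j _ => hr j, fun i => ?_⟩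
  rw [map_mul, ← h i, ← Finset.mul_prod_erase Finset.univ _ (Finset.mem_univ i), map_mul]
  ring

variable {F : IntermediateField L (LaurentSeries L)}
variable {G : Type*} [Group G] [MulSemiringAction G F] [SMulCommClass G L F]

namespace Hyp

variable {T : G} {n : ℕ} {x : LaurentSeries A} (H : Hyp π J F G T n x)
include H

theorem faithful : FaithfulSMul G F := by
  refine ⟨fun {g₁ g₂} h => ?_⟩
  by_contra hne
  have hne' : g₂⁻¹ * g₁ ≠ 1 := by
    intro h1
    exact hne (by rw [← mul_one g₂, ← h1, mul_inv_cancel_left])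
  obtain ⟨y, hy⟩ := H.faith _ hne'
  apply hy
  congr 1
  apply Subtype.ext
  show (g₂⁻¹ * g₁) • (y : F) = y
  rw [mul_smul, h, inv_smul_smul]

variable [Finite G]

theorem exists_coreData : ∃ w : Fin (Nat.card G) → LaurentSeries A,
    CoreData π F (Nat.card G) J w ∧
      ∀ i, ∃ h : iota A (w i) ∈ F, (⟨iota A (w i), h⟩ : F) ∈ ringB π J F G := by
  classical
  obtain ⟨-, w, hw⟩ := H.main
  have hwi : ∀ i, IsInt π J (((w i : ringB π J F G) : F) : LaurentSeries L) :=
    fun i => isInt_coe (w i)
  choose q a hq ha using hwi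
  have hcoe : ∀ i, (((algebraMap (FixedPoints.subring (ringB π J F G) G) (ringB π J F G) (polyB H.J_mem H.J_fix (q i)) * w i :
      ringB π J F G) : F) : LaurentSeries L) = iota A (a i) := by
    intro i
    rw [← ha i, ← coe_polyB (π := π) H.J_mem H.J_fix (q i)]
    rfl
  have hmem : ∀ i, iota A (a i) ∈ F := fun i => by
    rw [← hcoe i]; exact Subtype.mem _
  have hind : ∀ f : Fin (Nat.card G) → k[X],
      ∑ i, aeval (pi π J) (f i) * pi π (a i) = 0 → ∀ i, f i = 0 := by
    intro f hf i
    choose p hp using fun i => Polynomial.map_surjective π H.surj (f i)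
    have h1 := hw (fun i => polyB H.J_mem H.J_fix (p i * q i)) (by
      rw [← hf]
      refine Finset.sum_congr rfl fun i _ => ?_
      rw [redB_polyB, evA_mul, map_mul, pi_evA, hp i, mul_assoc, redB_mul_of H.tr _ (ha i)]) i
    rw [redB_polyB] at h1
    by_contra hfi
    refine pi_evA_ne_zero_of H.tr ?_ h1
    rw [Polynomial.map_mul, hp i]
    exact mul_ne_zero hfi (hq i)
  refine ⟨a, ⟨H.surj, Nat.card_pos, H.J_mem, hmem, ?_, hind⟩, fun i => ⟨hmem i, ?_⟩⟩
  · -- span
    cases nonempty_fintype G
    have := H.faithful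
    set v : Fin (Nat.card G) → F := fun i => ⟨iota A (a i), hmem i⟩ with hv
    have hrat : ∀ c : FixedPoints.subfield G F, IsRat J ((c : F) : LaurentSeries L) :=
      fun c => H.fix _ (fun g => c.2 g)
    have hli : LinearIndependent (FixedPoints.subfield G F) v := by
      rw [Fintype.linearIndependent_iff]
      intro c hc i
      obtain ⟨g, f, hg, hf⟩ := exists_common_den (fun i => ((c i : F) : LaurentSeries L))
        (fun i => hrat (c i))
      have h1 := indep_lift hind f (by
        have h2 := congrArg (fun z : F => aeval (iota A J) g * (z : LaurentSeries L)) hc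
        simp only [ZeroMemClass.coe_zero, mul_zero] at h2
        rw [← h2, IntermediateField.coe_sum, Finset.mul_sum]
        refine Finset.sum_congr rfl fun i _ => ?_
        rw [hf i, mul_assoc]
        rfl) i
      have h3 := hf i
      rw [h1, map_zero] at h3
      have h4 := (mul_eq_zero.mp h3.symm).resolve_left (aeval_iota_ne_zero_of H.tr hg)
      exact Subtype.ext (Subtype.ext h4)
    have hspan := hli.span_eq_top_of_card_eq_finrank' (by
      rw [FixedPoints.finrank_eq_card, Fintype.card_fin, Nat.card_eq_fintype_card])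
    intro y hy
    have hy' : (⟨y, hy⟩ : F) ∈ Submodule.span (FixedPoints.subfield G F) (Set.range v) := by
      rw [hspan]; trivial
    obtain ⟨c, hc⟩ := (Submodule.mem_span_range_iff_exists_fun _).mp hy'
    obtain ⟨g, f, hg, hf⟩ := exists_common_den (fun i => ((c i : F) : LaurentSeries L))
      (fun i => hrat (c i))
    refine ⟨g, f, hg, ?_⟩
    have h2 := congrArg (fun z : F => aeval (iota A J) g * (z : LaurentSeries L)) hc
    simp only at h2
    rw [← h2, IntermediateField.coe_sum, Finset.mul_sum]
    refine Finset.sum_congr rfl fun i _ => ?_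
    rw [hf i, mul_assoc]
    rfl
  · have : (⟨iota A (a i), hmem i⟩ : F) =
        ((algebraMap (FixedPoints.subring (ringB π J F G) G) (ringB π J F G) (polyB H.J_mem H.J_fix (q i)) * w i : ringB π J F G) : F) :=
      Subtype.ext (hcoe i).symm
    rw [this]
    exact Subtype.mem _

end Hyp

end Fermat.Agent.S48.ModL.Igusa
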