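import Fermat.Agent.RED.Gauss.Core

/-!
# S48 / MODL / [I] : degree of the residue field of a `CoreData`, and the inequality `f ≤ n`
-/

set_option autoImplicit false
noncomputable section

open ModularCurve Polynomial IntermediateField
open Fermat.Agent.RED.Gauss

namespace Fermat.Agent.S48.ModL.Igusa

section pure

variable {k E : Type*} [Field k] [Field E] [Algebra k E] {n : ℕ} (tE : E) (wE : Fin n → E)

theorem span_eq_top_of (h : ∀ z : E, ∃ (q : k[X]) (q' : Fin n → k[X]), aeval tE q ≠ 0 ∧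
    z * aeval tE q = ∑ i, aeval tE (q' i) * wE i) :
    Submodule.span k⟮tE⟯ (Set.range wE) = ⊤ := by
  rw [eq_top_iff]
  intro z _
  obtain ⟨q, q', hq, hz⟩ := h z
  have key : z = ∑ i, (aeval (AdjoinSimple.gen k tE) (q' i) /
      aeval (AdjoinSimple.gen k tE) q) • wE i := by
    rw [eq_div_of_mul_eq hq hz, Finset.sum_div]
    refine Finset.sum_congr rfl fun i _ => ?_
    rw [Algebra.smul_def, map_div₀, ← aeval_algebraMap_apply, ← aeval_algebraMap_apply,
      AdjoinSimple.algebraMap_gen]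
    ring
  rw [key]
  exact Submodule.sum_mem _ fun i _ => Submodule.smul_mem _ _ (Submodule.subset_span ⟨i, rfl⟩)

theorem finite_of_span (h : Submodule.span k⟮tE⟯ (Set.range wE) = ⊤) :
    Module.Finite k⟮tE⟯ E :=
  ⟨⟨(Set.finite_range wE).toFinset, by rw [Set.Finite.coe_toFinset]; exact h⟩⟩

theorem finrank_le_of_span (h : Submodule.span k⟮tE⟯ (Set.range wE) = ⊤) :
    Module.finrank k⟮tE⟯ E ≤ n := by
  have h1 := finrank_range_le_card (R := k⟮tE⟯) wE
  rw [Set.finrank, h, finrank_top, Fintype.card_fin] at h1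
  exact h1

end pure

variable {L : Type*} [Field L] {A : ValuationSubring L}
variable {k : Type*} [Field k] {π : A →+* k}

theorem const_mem_of (hπ : Function.Surjective π) {y : LaurentSeries L} (hy : y ∈ bigO π) {c : L}
    (hc : c ≠ 0) {a b : LaurentSeries A} (ha : pi π a ≠ 0)
    (h : y * iota A b = algebraMap L (LaurentSeries L) c * iota A a) : c ∈ A := by
  by_contra hcA
  have hc' : c⁻¹ ∈ A := (A.mem_or_inv_mem c).resolve_left hcA
  have h0 : π ⟨c⁻¹, hc'⟩ = 0 := residue_eq_zero_of_inv_not_mem hπ hc' (by rwa [inv_inv])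
  have h1 : (⟨iota A (cA A ⟨c⁻¹, hc'⟩ * b), iota_mem_bigO π _⟩ : bigO π) * ⟨y, hy⟩ =
      ⟨iota A a, iota_mem_bigO π _⟩ := by
    apply Subtype.ext
    show iota A (cA A ⟨c⁻¹, hc'⟩ * b) * y = iota A a
    rw [map_mul, iota_cA, mul_assoc, mul_comm (iota A b), h, ← mul_assoc, ← map_mul]
    simp [inv_mul_cancel₀ hc]
  have h2 := congrArg (bigRed π) h1
  rw [map_mul, bigRed_iota, bigRed_iota, map_mul, pi_cA, h0, map_zero, zero_mul, zero_mul] at h2
  exact ha h2.symm

variable {F : IntermediateField L (LaurentSeries L)}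
variable {n : ℕ} {t : LaurentSeries A} {w : Fin n → LaurentSeries A}

/-- the reduction of `t` in the residue field -/
def tb (HC : CoreData π F n t w) (hN : Norm π F) : gFb hN :=
  gRedF hN ⟨⟨iota A t, HC.t_mem⟩, integral_mem_gO hN HC.t_mem⟩

/-- the reduction of `w i` in the residue field -/
def wb (HC : CoreData π F n t w) (hN : Norm π F) (i : Fin n) : gFb hN :=
  gRedF hN ⟨⟨iota A (w i), HC.w_mem i⟩, integral_mem_gO hN (HC.w_mem i)⟩

variable (HC : CoreData π F n t w) (hN : Norm π F)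

theorem coe_tb : ((tb HC hN : gFb hN) : LaurentSeries k) = pi π t := gRed_integral hN HC.t_mem

theorem coe_wb (i : Fin n) : ((wb HC hN i : gFb hN) : LaurentSeries k) = pi π (w i) :=
  gRed_integral hN (HC.w_mem i)

include HC in
/-- normal form of an element of the Gauss ring -/
theorem exists_normal_form (y : gO hN) (hy0 : y ≠ 0) :
    ∃ (c : A) (p : A[X]) (p' : Fin n → A[X]), p.map π ≠ 0 ∧
      ((y : F) : LaurentSeries L) * iota A (evA t p) = iota A (cA A c * comb t w p') := by
  obtain ⟨g₀, f, hg, hgf⟩ := HC.span (y : F) (y : F).2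
  have hy0' : ((y : F) : LaurentSeries L) ≠ 0 := fun h => hy0 (Subtype.ext (Subtype.ext h))
  have hf : ∃ i, f i ≠ 0 := by
    by_contra hcon
    push Not at hcon
    have : aeval (iota A t) g₀ * ((y : F) : LaurentSeries L) = 0 := by
      rw [hgf]; exact Finset.sum_eq_zero fun i _ => by rw [hcon i]; simp
    exact (mul_ne_zero (HC.aeval_iota_ne_zero hg) hy0') this
  obtain ⟨c, p, hc, hp, h1⟩ := HC.exists_norm_poly hg
  obtain ⟨c', p', hc', hp', h2⟩ := HC.exists_norm_comb hf
  have hrel : ((y : F) : LaurentSeries L) * iota A (evA t p) =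
      algebraMap L (LaurentSeries L) (c⁻¹ * c') * iota A (comb t w p') := by
    rw [h1, h2] at hgf
    have hcL : algebraMap L (LaurentSeries L) c ≠ 0 := by rw [Ne, map_eq_zero]; exact hc
    rw [map_mul, map_inv₀, mul_assoc, ← hgf]
    field_simp
  have hcA := const_mem_of HC.surj y.2 (mul_ne_zero (inv_ne_zero hc) hc')
    (HC.pi_comb_ne_zero hp') hrel
  refine ⟨⟨_, hcA⟩, p, p', hp, ?_⟩
  rw [map_mul, iota_cA]
  exact hrel

theorem coe_aeval_tb (q : k[X]) :
    ((aeval (tb HC hN) q : gFb hN) : LaurentSeries k) = aeval (pi π t) q := by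
  have := aeval_algHom_apply (gFb hN).val (tb HC hN) q
  rw [← coe_tb HC hN]
  exact this.symm

/-- the residue field is spanned by the `wb i` over `k(tb)`, elementary form -/
theorem exists_residue_comb (z : gFb hN) :
    ∃ (q : k[X]) (q' : Fin n → k[X]), aeval (tb HC hN) q ≠ 0 ∧
      z * aeval (tb HC hN) q = ∑ i, aeval (tb HC hN) (q' i) * wb HC hN i := by
  obtain ⟨y, rfl⟩ := gRedF_surjective hN z
  by_cases hy0 : y = 0
  · exact ⟨1, fun _ => 0, by simp, by simp [hy0]⟩
  obtain ⟨c, p, p', hp, h⟩ := exists_normal_form HC hN y hy0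
  have hpne : pi π (evA t p) ≠ 0 := HC.pi_evA_ne_zero hp
  refine ⟨p.map π, fun i => C (π c) * (p' i).map π, ?_, ?_⟩
  · intro h0
    apply hpne
    rw [pi_evA, ← coe_aeval_tb HC hN, h0]
    rfl
  · apply Subtype.ext
    rw [IntermediateField.coe_mul, coe_gRedF, gRed_eq hN y hpne h, IntermediateField.coe_sum,
      coe_aeval_tb, ← pi_evA, div_mul_cancel₀ _ hpne, map_mul, pi_cA, pi_comb, Finset.mul_sum]
    refine Finset.sum_congr rfl fun i _ => ?_
    rw [IntermediateField.coe_mul, coe_aeval_tb, coe_wb, map_mul, aeval_C, mul_assoc]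

end Fermat.Agent.S48.ModL.Igusa
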