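import Fermat.Agent.S48.ModL.Igusa.Core

/-!
# S48 / MODL / [I] : the hypotheses `x_int`, `card`, `sep` of `Hyp` from a family of integral roots
-/

set_option autoImplicit false
noncomputable section

open ModularCurve Polynomial
open Fermat.Agent.RED.Gauss

namespace Fermat.Agent.S48.ModL.Igusa

variable {L : Type*} [Field L] {A : ValuationSubring L}
variable {k : Type*} [Field k] {π : A →+* k} {J : LaurentSeries A}
variable {F : IntermediateField L (LaurentSeries L)}
variable {G : Type*} [Group G] [MulSemiringAction G F] [SMulCommClass G L F]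
variable {ι : Type*} [Fintype ι] [DecidableEq ι] (U : ι → LaurentSeries A)

/-- the characteristic polynomial of the family comes from `A[X][X]` -/
theorem exists_lift_family
    (hchar : ∀ i, ∃ P : A[X], (∏ c, (X - C (U c))).coeff i = evA J P) :
    ∃ Ψ : A[X][X], Ψ.map (evH J) = ∏ c, (X - C (U c)) := by
  have : (∏ c, (X - C (U c))) ∈ lifts (evH J) := (lifts_iff_coeff_lifts _).2 (fun i => by
    obtain ⟨P, hP⟩ := hchar i
    exact ⟨P, hP.symm⟩)
  exact (mem_lifts _).1 this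

theorem coe_eval₂_polyF (hJF : iota A J ∈ F) (Ψ : A[X][X])
    (hΨ : Ψ.map (evH J) = ∏ c, (X - C (U c))) (y : F) :
    ((Ψ.eval₂ (polyF hJF) y : F) : LaurentSeries L) =
      ∏ c, ((y : LaurentSeries L) - iota A (U c)) := by
  have h1 : (algebraMap F (LaurentSeries L)).comp (polyF hJF) = (iota A).comp (evH J) :=
    RingHom.ext fun p => coe_polyF hJF p
  have h2 := Polynomial.hom_eval₂ Ψ (polyF hJF) (algebraMap F (LaurentSeries L)) y
  have h3 : ((Ψ.eval₂ (polyF hJF) y : F) : LaurentSeries L) =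
      Ψ.eval₂ ((iota A).comp (evH J)) (y : LaurentSeries L) := by
    rw [← h1]; exact h2
  rw [h3, ← eval₂_map, hΨ, ← eval_map, Polynomial.map_prod, eval_prod]
  refine Finset.prod_congr rfl fun c _ => ?_
  simp

theorem smul_eval₂_polyF (hJF : iota A J ∈ F)
    (hfix : ∀ g : G, g • (⟨iota A J, hJF⟩ : F) = ⟨iota A J, hJF⟩) (Ψ : A[X][X]) (g : G) (y : F) :
    g • (Ψ.eval₂ (polyF hJF) y : F) = Ψ.eval₂ (polyF hJF) (g • y) := by
  have h1 : (MulSemiringAction.toRingHom G F g).comp (polyF hJF) = polyF hJF :=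
    RingHom.ext fun p => smul_polyF hJF hfix g p
  have h2 := Polynomial.hom_eval₂ Ψ (polyF hJF) (MulSemiringAction.toRingHom G F g) y
  rw [h1] at h2
  exact h2

/-- every conjugate of a member of the family is a member of the family -/
theorem exists_smul_eq_family (hJF : iota A J ∈ F)
    (hfix : ∀ g : G, g • (⟨iota A J, hJF⟩ : F) = ⟨iota A J, hJF⟩)
    (hchar : ∀ i, ∃ P : A[X], (∏ c, (X - C (U c))).coeff i = evA J P)
    (c₀ : ι) (hx : iota A (U c₀) ∈ F) (g : G) :
    ∃ c, ((g • (⟨iota A (U c₀), hx⟩ : F) : F) : LaurentSeries L) = iota A (U c) := by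
  obtain ⟨Ψ, hΨ⟩ := exists_lift_family U hchar
  have h0 : (Ψ.eval₂ (polyF hJF) (⟨iota A (U c₀), hx⟩ : F) : F) = 0 := by
    apply Subtype.ext
    rw [coe_eval₂_polyF U hJF Ψ hΨ]
    exact Finset.prod_eq_zero (Finset.mem_univ c₀) (sub_self _)
  have h1 := smul_eval₂_polyF hJF hfix Ψ g (⟨iota A (U c₀), hx⟩ : F)
  rw [h0, smul_zero] at h1
  have h2 := congrArg (fun z : F => (z : LaurentSeries L)) h1.symm
  simp only [coe_eval₂_polyF U hJF Ψ hΨ] at h2
  obtain ⟨c, -, hc⟩ := Finset.prod_eq_zero_iff.mp h2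
  exact ⟨c, sub_eq_zero.mp hc⟩

theorem isInt_smul_family (hJF : iota A J ∈ F)
    (hfix : ∀ g : G, g • (⟨iota A J, hJF⟩ : F) = ⟨iota A J, hJF⟩)
    (hchar : ∀ i, ∃ P : A[X], (∏ c, (X - C (U c))).coeff i = evA J P)
    (c₀ : ι) (hx : iota A (U c₀) ∈ F) (g : G) :
    IsInt π J ((g • (⟨iota A (U c₀), hx⟩ : F) : F) : LaurentSeries L) := by
  obtain ⟨c, hc⟩ := exists_smul_eq_family U hJF hfix hchar c₀ hx g
  rw [hc]
  exact isInt_iota _

theorem ncard_orbit_family_le (hJF : iota A J ∈ F)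
    (hfix : ∀ g : G, g • (⟨iota A J, hJF⟩ : F) = ⟨iota A J, hJF⟩)
    (hchar : ∀ i, ∃ P : A[X], (∏ c, (X - C (U c))).coeff i = evA J P)
    (c₀ : ι) (hx : iota A (U c₀) ∈ F) :
    (MulAction.orbit G (⟨iota A (U c₀), hx⟩ : F)).ncard ≤ Fintype.card ι := by
  classical
  rw [← Set.ncard_image_of_injective _ (Subtype.val_injective (p := fun z => z ∈ F))]
  have hsub : Subtype.val '' (MulAction.orbit G (⟨iota A (U c₀), hx⟩ : F)) ⊆
      ((Finset.univ.image fun c => iota A (U c) : Finset (LaurentSeries L)) :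
        Set (LaurentSeries L)) := by
    rintro _ ⟨_, ⟨g, rfl⟩, rfl⟩
    obtain ⟨c, hc⟩ := exists_smul_eq_family U hJF hfix hchar c₀ hx g
    rw [Finset.coe_image]
    exact ⟨c, by simp, hc.symm⟩
  refine (Set.ncard_le_ncard hsub (Finset.finite_toSet _)).trans ?_
  rw [Set.ncard_coe_finset]
  exact Finset.card_image_le.trans (le_of_eq Finset.card_univ)

theorem sep_family
    (hchar : ∀ i, ∃ P : A[X], (∏ c, (X - C (U c))).coeff i = evA J P)
    (c₀ : ι) (hne : ∀ c, c ≠ c₀ → pi π (U c) ≠ pi π (U c₀)) :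
    ∃ p : A[X][X], p.eval₂ (evH J) (U c₀) = 0 ∧
      pi π ((derivative p).eval₂ (evH J) (U c₀)) ≠ 0 := by
  obtain ⟨Ψ, hΨ⟩ := exists_lift_family U hchar
  refine ⟨Ψ, ?_, ?_⟩
  · rw [← eval_map, hΨ, eval_prod]
    exact Finset.prod_eq_zero (Finset.mem_univ c₀) (by simp)
  · rw [← eval_map, ← derivative_map, hΨ]
    have h1 := Lagrange.eval_nodal_derivative_eval_node_eq (s := Finset.univ) (v := U)
      (Finset.mem_univ c₀)
    rw [Lagrange.nodal, Lagrange.nodal] at h1
    rw [h1, eval_prod, map_prod]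
    refine Finset.prod_ne_zero_iff.mpr fun c hc => ?_
    simp only [eval_sub, eval_X, eval_C, map_sub]
    exact sub_ne_zero.mpr (hne c (Finset.ne_of_mem_erase hc)).symm

end Fermat.Agent.S48.ModL.Igusa
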