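import Fermat.Agent.S48.ModL.Igusa.Core

/-!
# S48 / MODL / [I] : Igusa, formal core (application of the abstract lemma)
-/

set_option autoImplicit false
noncomputable section

open ModularCurve Polynomial
open Fermat.Agent.RED.Gauss

namespace Fermat.Agent.S48.ModL.Igusa

variable {L : Type*} [Field L] {A : ValuationSubring L}
variable {k : Type*} [Field k] {π : A →+* k} {J : LaurentSeries A}
variable {F : IntermediateField L (LaurentSeries L)}
variable {G : Type*} [Group G] [MulSemiringAction G F] [SMulCommClass G L F]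

namespace Hyp

variable {T : G} {n : ℕ} {x : LaurentSeries A} (H : Hyp π J F G T n x)
include H

/-- `x` as an element of `B` -/
def xB : ringB π J F G := ⟨⟨iota A x, H.x_mem⟩, H.x_int⟩

theorem redB_xB : redB H.tr H.xB = pi π x := redB_of_iota H.tr _ x rfl

theorem card_xB : (MulAction.orbit G H.xB).ncard ≤ n := by
  refine le_trans (le_of_eq ?_) H.card
  rw [← Set.ncard_image_of_injective _ Subtype.val_injective]
  congr 1
  ext y
  constructor
  · rintro ⟨_, ⟨g, rfl⟩, rfl⟩
    exact ⟨g, rfl⟩
  · rintro ⟨g, rfl⟩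
    exact ⟨_, ⟨g, rfl⟩, rfl⟩

theorem deg_xB (p : (FixedPoints.subring (ringB π J F G) G)[X]) (hp : p.natDegree < n)
    (h0 : p.eval₂ ((redB H.tr).comp (algebraMap _ (ringB π J F G))) (redB H.tr H.xB) = 0) :
    p.map ((redB H.tr).comp (algebraMap _ (ringB π J F G))) = 0 := by
  classical
  set ρ := (redB H.tr).comp (algebraMap (FixedPoints.subring (ringB π J F G) G) (ringB π J F G))
    with hρ
  choose P Q hQ hPQ using fun i : Fin n => H.exists_frac (p.coeff i)
  rw [eval₂_eq_sum_range' _ hp, Finset.sum_range, H.redB_xB] at h0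
  have key : ∀ i : Fin n, aeval (pi π J) ((P i).map π * ∏ j ∈ Finset.univ.erase i, (Q j).map π) =
      (∏ j, aeval (pi π J) ((Q j).map π)) * ρ (p.coeff i) := by
    intro i
    rw [map_mul, map_prod, ← hPQ i, ← Finset.mul_prod_erase Finset.univ _ (Finset.mem_univ i)]
    simp only [hρ, RingHom.comp_apply]
    ring
  have h1 := H.deg (fun i => (P i).map π * ∏ j ∈ Finset.univ.erase i, (Q j).map π) (by
    simp only [key]
    rw [← mul_zero (∏ j, aeval (pi π J) ((Q j).map π)), ← h0, Finset.mul_sum]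
    exact Finset.sum_congr rfl fun i _ => by ring)
  refine Polynomial.ext fun i => ?_
  rw [coeff_map, coeff_zero]
  by_cases hi : i < n
  · have h2 := key ⟨i, hi⟩
    rw [h1 ⟨i, hi⟩, map_zero] at h2
    have h3 : (∏ j, aeval (pi π J) ((Q j).map π)) ≠ 0 :=
      Finset.prod_ne_zero_iff.mpr fun j _ h => hQ j (transcendental_iff.mp H.tr _ h)
    exact (mul_eq_zero.mp h2.symm).resolve_left h3
  · rw [coeff_eq_zero_of_natDegree_lt (lt_of_lt_of_le hp (not_lt.mp hi)), map_zero]

theorem sep_xB : ∃ p : (FixedPoints.subring (ringB π J F G) G)[X],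
    p.eval₂ ((redB H.tr).comp (algebraMap _ (ringB π J F G))) (redB H.tr H.xB) = 0 ∧
    (derivative p).eval₂ ((redB H.tr).comp (algebraMap _ (ringB π J F G))) (redB H.tr H.xB) ≠ 0 := by
  obtain ⟨p, hp0, hp1⟩ := H.sep
  have hcomp : ((redB H.tr).comp (algebraMap (FixedPoints.subring (ringB π J F G) G)
      (ringB π J F G))).comp (polyB H.J_mem H.J_fix) = (pi π).comp (evH J) := by
    refine RingHom.ext fun q => ?_
    exact redB_polyB H.tr H.J_mem H.J_fix q
  refine ⟨p.map (polyB H.J_mem H.J_fix), ?_, ?_⟩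
  · rw [eval₂_map, hcomp, H.redB_xB, ← Polynomial.hom_eval₂, hp0, map_zero]
  · rw [derivative_map, eval₂_map, hcomp, H.redB_xB, ← Polynomial.hom_eval₂]
    exact hp1

variable [Finite G]

theorem main :
    (∀ (g : G) (b : ringB π J F G), redB H.tr b = 0 → redB H.tr (g • b) = 0) ∧
    ∃ w : Fin (Nat.card G) → ringB π J F G,
      ∀ c : Fin (Nat.card G) → FixedPoints.subring (ringB π J F G) G,
        ∑ i, redB H.tr (algebraMap _ (ringB π J F G) (c i)) * redB H.tr (w i) = 0 →
          ∀ i, redB H.tr (algebraMap _ (ringB π J F G) (c i)) = 0 := by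
  refine igusa G (redB H.tr) H.field T H.T_red H.xB n H.card_xB H.deg_xB H.sep_xB ?_ H.gen ?_
  · intro b hb
    exact H.stab b (congrArg Subtype.val hb)
  · intro g hg
    by_contra hne
    obtain ⟨y, hy⟩ := H.faith g hne
    exact hy (hg y)

end Hyp

end Fermat.Agent.S48.ModL.Igusa
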