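import Fermat.Agent.RED.Gauss.Bridge
import Fermat.Agent.S48.ModL.Igusa.Family

/-!
# S48 / MODL / [I] : transport of the S28 root family from `ℂ((t))` to `A((t))`
-/

set_option autoImplicit false
noncomputable section

open ModularCurve Polynomial
open Fermat.Agent.RED.Gauss Fermat.Agent.S24 Fermat.Agent.S28 Fermat.Agent.RED

namespace Fermat.Agent.S48.ModL.Igusa

section formal

variable {k : Type*} [Field k] {ι : Type*} [Fintype ι] [DecidableEq ι]

/-- if all `V c`, `c ≠ c₀`, vanish at `t = 0` and the product of all `V c` is a polynomial in a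
series with a pole, then `V c₀` is different from the others -/
theorem ne_of_prod_eq_aeval (V : ι → LaurentSeries k) (hV : ∀ c, V c ≠ 0) (c₀ : ι)
    (hpos : ∀ c, c ≠ c₀ → 0 < (V c).order) {Jb : LaurentSeries k} {m : ℕ}
    (hJ : IsMonicPole Jb m) (Q : k[X]) (hQ : ∏ c, V c = aeval Jb Q) (c : ι) (hc : c ≠ c₀) :
    V c ≠ V c₀ := by
  intro heq
  have hW : (∏ c ∈ Finset.univ.erase c₀, V c) ≠ 0 ∧
      0 ≤ (∏ c ∈ Finset.univ.erase c₀, V c).order := by
    refine Finset.prod_induction _ (fun z : LaurentSeries k => z ≠ 0 ∧ 0 ≤ z.order) ?_ ?_ ?_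
    · rintro a b ⟨ha, ha'⟩ ⟨hb, hb'⟩
      exact ⟨mul_ne_zero ha hb, by rw [HahnSeries.order_mul ha hb]; exact add_nonneg ha' hb'⟩
    · exact ⟨one_ne_zero, by rw [HahnSeries.order_one]⟩
    · intro c' hc'
      exact ⟨hV c', (hpos c' (Finset.ne_of_mem_erase hc')).le⟩
  have h1 : 0 < (aeval Jb Q).order := by
    rw [← hQ, ← Finset.mul_prod_erase Finset.univ V (Finset.mem_univ c₀),
      HahnSeries.order_mul (hV c₀) hW.1, ← heq]
    exact add_pos_of_pos_of_nonneg (hpos c hc) hW.2
  have hQ0 : Q ≠ 0 := by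
    rintro rfl
    rw [map_zero] at hQ
    exact (Finset.prod_ne_zero_iff.mpr fun c _ => hV c) hQ
  have h2 : (aeval Jb Q).coeff (-((m : ℤ) * Q.natDegree)) ≠ 0 := by
    rw [hJ.coeff_aeval]; exact leadingCoeff_ne_zero.mpr hQ0
  have h3 := HahnSeries.order_le_of_coeff_ne_zero h2
  have h4 : (0 : ℤ) ≤ (m : ℤ) * Q.natDegree := by positivity
  linarith

end formal

section theta

variable (A : ValuationSubring Kb)

theorem mem_of_isIntegral_int {z : Kb} (hz : IsIntegral ℤ z) : z ∈ A := by
  have h1 : IsIntegral A z := hz.tower_top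
  obtain ⟨y, hy⟩ := IsIntegrallyClosed.algebraMap_eq_of_integral h1
  rw [← hy]
  exact y.2

variable {p : ℕ} [Fact p.Prime] (M : ℕ) [NeZero M]

theorem inv_natCast_mem (hA : A.LiesOverPrime p) (hpM : ¬ p ∣ M) : ((M : Kb))⁻¹ ∈ A := by
  have := charP_residueField A hA
  have h1 : IsLocalRing.residue A (M : A) ≠ 0 := by
    rw [map_natCast]
    intro h0
    exact hpM ((CharP.cast_eq_zero_iff (IsLocalRing.ResidueField A) p M).mp h0)
  have h2 : IsUnit (M : A) := by
    by_contra hnu
    exact h1 ((IsLocalRing.residue_eq_zero_iff _).mpr hnu)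
  obtain ⟨v, hv⟩ := h2
  have h3 : ((M : Kb))⁻¹ = (((v⁻¹ : Aˣ) : A) : Kb) := by
    rw [coe_unit_inv, hv]
    simp
  rw [h3]
  exact Subtype.mem _

theorem mem_range_iotaK_of_alg (x : ℂ) (hx : IsAlgebraic ℚ x) :
    x ∈ iotaK.toRingHom.range := by
  have h1 : IsAlgClosed iotaK.fieldRange :=
    IsAlgClosed.of_ringEquiv Kb iotaK.fieldRange (AlgEquiv.ofInjectiveField iotaK).toRingEquiv
  have h2 : IsAlgebraic iotaK.fieldRange x := hx.tower_top _
  have h3 : IsIntegral iotaK.fieldRange x := h2.isIntegral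
  obtain ⟨y, hy⟩ := minpoly.mem_range_of_degree_eq_one iotaK.fieldRange x
    (IsAlgClosed.degree_eq_one_of_irreducible _ (minpoly.irreducible h3))
  obtain ⟨a, ha⟩ := y.2
  exact ⟨a, by rw [← hy]; exact ha⟩

/-- elements of `NInt M` come from `A` -/
theorem NInt_le_map (hA : A.LiesOverPrime p) (hpM : ¬ p ∣ M) :
    NInt M ≤ A.toSubring.map iotaK.toRingHom := by
  rintro x ⟨m, hm⟩
  have hN : (M : ℂ) ^ m ≠ 0 := pow_ne_zero _ (Nat.cast_ne_zero.mpr (NeZero.ne M))
  obtain ⟨y, hy⟩ := mem_range_iotaK_of_alg _ (hm.tower_top (A := ℚ)).isAlgebraic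
  have hy' : iotaK y = (M : ℂ) ^ m * x := hy
  have hyint : IsIntegral ℤ y := by
    have : IsIntegral ℤ (iotaK y) := by rw [hy']; exact hm
    exact (isIntegral_algHom_iff (iotaK.restrictScalars ℤ) iotaK.toRingHom.injective).mp this
  refine ⟨((M : Kb))⁻¹ ^ m * y, ?_, ?_⟩
  · exact A.mul_mem _ _ (A.pow_mem (inv_natCast_mem A M hA hpM) m) (mem_of_isIntegral_int A hyint)
  · show iotaK (((M : Kb))⁻¹ ^ m * y) = x
    rw [map_mul, hy', map_pow, map_inv₀, map_natCast, inv_pow, inv_mul_cancel_left₀ hN]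

/-- the ring homomorphism `NInt M → A` -/
theorem exists_theta (hA : A.LiesOverPrime p) (hpM : ¬ p ∣ M) :
    ∃ θ : NInt M →+* A, ∀ z, iotaK ((θ z : A) : Kb) = (z : ℂ) := by
  let e : A.toSubring ≃+* A.toSubring.map iotaK.toRingHom :=
    A.toSubring.equivMapOfInjective iotaK.toRingHom iotaK.toRingHom.injective
  refine ⟨(e.symm : _ →+* _).comp (Subring.inclusion (NInt_le_map A M hA hpM)), fun z => ?_⟩
  have h1 := Subring.coe_equivMapOfInjective_apply A.toSubring iotaK.toRingHom
    iotaK.toRingHom.injective (e.symm (Subring.inclusion (NInt_le_map A M hA hpM) z))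
  have h2 : e (e.symm (Subring.inclusion (NInt_le_map A M hA hpM) z)) =
      Subring.inclusion (NInt_le_map A M hA hpM) z := e.apply_symm_apply _
  rw [show A.toSubring.equivMapOfInjective iotaK.toRingHom iotaK.toRingHom.injective = e from rfl,
    h2] at h1
  exact h1.symm

theorem evA_eq_aeval {L : Type*} [Field L] {A : ValuationSubring L} (J : LaurentSeries A)
    (P : A[X]) : evA J P = aeval J P := by
  rw [evA, aeval_def]
  congr 1
  exact RingHom.ext fun r => (algebraMap_laurent_eq_C r).symm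

/-- **the S28 root family, over `A`** -/
theorem exists_family (hA : A.LiesOverPrime p) (hpM : ¬ p ∣ M) :
    ∃ (u : LaurentSeries ℤ) (U : Q M → LaurentSeries A),
      IsCoreExt M p (Fintype.card (Q M)) u ∧
      U (Q.base M) = qExpand A M (castLS A u) ∧
      (∀ i, ∃ P : A[X], (∏ c, (X - C (U c))).coeff i = evA (qExpand A M (jqModC A)) P) ∧
      (∀ c, c ≠ Q.base M →
        pi (IsLocalRing.residue A) (U c) ≠ pi (IsLocalRing.residue A) (U (Q.base M))) := by
  obtain ⟨u, U, H, h, h', -⟩ := exists_rootFamilyExt M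
  obtain ⟨θ, hθ⟩ := exists_theta A M hA hpM
  set O : Subring ℂ := NInt M with hO
  have hinj : Function.Injective (coeffMap O.subtype) :=
    coeffMap_injective _ Subtype.val_injective
  have hJ : coeffMap O.subtype (qExpand O M (jqModC O)) = jN M := coeffMap_qExpand_jqModC _ M
  choose U' hU' using fun c => exists_coeffMap_subtype O (U c) (h.U_int c)
  choose V' hV' using fun c => exists_coeffMap_subtype O (U c)⁻¹ (h.Uinv_int c)
  refine ⟨u, fun c => coeffMap θ (U' c), isCoreExt_of_family p hpM h h', ?_, ?_, ?_⟩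
  · have h1 : U' (Q.base M) = qExpand O M (castLS O u) := by
      apply hinj
      rw [hU', h.U_c₀, coeffMap_qExpand, coeffMap_castLS]
    show coeffMap θ (U' (Q.base M)) = _
    rw [h1, coeffMap_qExpand, coeffMap_castLS]
  · intro i
    obtain ⟨P, hP⟩ := h.charpoly_coeff i
    have hx : coeffMap O.subtype ((∏ c, (X - C (U' c))).coeff i) = aeval (jN M) P := by
      rw [← coeff_map, map_prod_X_sub_C, ← hP]
      simp only [hU']
    obtain ⟨P', hP'⟩ := exists_lift_of_aeval_jN M O P (by
      intro j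
      rw [← hx]
      exact (((∏ c, (X - C (U' c))).coeff i).coeff j).2)
    have h1 : (∏ c, (X - C (U' c))).coeff i = aeval (qExpand O M (jqModC O)) P' := by
      apply hinj
      rw [hx, coeffMap_aeval, hJ, hP']
    refine ⟨P'.map θ, ?_⟩
    rw [evA_eq_aeval, ← coeffMap_qExpand_jqModC θ M, ← coeffMap_aeval, ← h1, ← coeff_map,
      map_prod_X_sub_C]
  · set π' : O →+* IsLocalRing.ResidueField A := (IsLocalRing.residue A).comp θ with hπ'
    have hpi : ∀ z : LaurentSeries O, pi (IsLocalRing.residue A) (coeffMap θ z) = coeffMap π' z :=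
      fun z => coeffMap_coeffMap _ _ _
    have hUV : ∀ c, U' c * V' c = 1 := by
      intro c
      apply hinj
      rw [map_mul, hU', hV', map_one, mul_inv_cancel₀ (h.U_ne c)]
    have hUVb : ∀ c, coeffMap π' (U' c) * coeffMap π' (V' c) = 1 := by
      intro c
      rw [← map_mul, hUV, map_one]
    have hVb_ne : ∀ c, coeffMap π' (V' c) ≠ 0 := fun c => right_ne_zero_of_mul_eq_one (hUVb c)
    have hpos : ∀ c, c ≠ Q.base M → 0 < (coeffMap π' (V' c)).order := by
      intro c hc
      have h1 : (U c).order + ((U c)⁻¹).order = 0 := by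
        rw [← HahnSeries.order_mul (h.U_ne c) (inv_ne_zero (h.U_ne c)),
          mul_inv_cancel₀ (h.U_ne c), HahnSeries.order_one]
      have h2 : 0 < ((U c)⁻¹).order := by linarith [h.order_neg c hc]
      by_contra hle
      have hle' : (coeffMap π' (V' c)).order < ((U c)⁻¹).order := lt_of_le_of_lt (not_lt.1 hle) h2
      have h4 : ((U c)⁻¹).coeff (coeffMap π' (V' c)).order = 0 :=
        HahnSeries.coeff_eq_zero_of_lt_order hle'
      have h5 : (V' c).coeff (coeffMap π' (V' c)).order = 0 := by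
        apply Subtype.val_injective
        have := congrArg (fun z => HahnSeries.coeff z (coeffMap π' (V' c)).order) (hV' c)
        simp only [coeffMap_coeff] at this
        rw [h4] at this
        exact this
      have h6 : (coeffMap π' (V' c)).coeff (coeffMap π' (V' c)).order = 0 := by
        rw [coeffMap_coeff, h5, map_zero]
      exact hVb_ne c (HahnSeries.coeff_order_eq_zero.1 h6)
    obtain ⟨P, hP⟩ := h.prod_inv
    obtain ⟨Q', hQ'⟩ := transfer_aeval π' (∏ c, V' c) P (by
      rw [map_prod, ← hP]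
      exact Finset.prod_congr rfl fun c _ => hV' c)
    rw [map_prod] at hQ'
    intro c hc heq
    rw [hpi, hpi] at heq
    refine ne_of_prod_eq_aeval (fun c => coeffMap π' (V' c)) hVb_ne (Q.base M) hpos
      (isMonicPole_qExpand_jqModC _ M) Q' hQ' c hc ?_
    show coeffMap π' (V' c) = coeffMap π' (V' (Q.base M))
    rw [← inv_eq_of_mul_eq_one_right (hUVb c), ← inv_eq_of_mul_eq_one_right (hUVb (Q.base M)), heq]

end theta

end Fermat.Agent.S48.ModL.Igusa
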