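import Fermat.Agent.S48.ModL.F.Main
import Fermat.Agent.S48.ModL.CongrAbs
import Fermat.Agent.S48.ModL.Igusa.Transport
import Fermat.Agent.S48.ModL.Igusa.Main

/-!
# S48 / MODL / [IY] : the hypotheses of the formal Igusa theorem for `lvlY M`
-/

set_option autoImplicit false
noncomputable section

open ModularCurve Polynomial CongruenceSubgroup
open scoped MatrixGroups
open Fermat.Agent.RED.Gauss Fermat.Agent.S24 Fermat.Agent.S28 Fermat.Agent.RED
open Fermat.Agent.S48.ModL.F Fermat.Agent.S48.ModL.Y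

namespace Fermat.Agent.S48.ModL.Igusa

section series

theorem qExpand_congr_level {R : Type*} [CommRing R] {d d' : ℕ} [NeZero d] [NeZero d']
    (h : d = d') (x : LaurentSeries R) : qExpand R d x = qExpand R d' x := by
  subst h; rfl

theorem qExpand_mem_full (N N' c : ℕ) [NeZero c] (h : N * c ∣ N') {y : LaurentSeries ℚ}
    (hy : y ∈ modularFunctionFieldFull N) : qExpand ℚ c y ∈ modularFunctionFieldFull N' := by
  have hle : (modularFunctionFieldFull N).map (qExpandAlgHomC ℚ c) ≤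
      modularFunctionFieldFull N' := by
    rw [modularFunctionFieldFull, IntermediateField.adjoin_map, IntermediateField.adjoin_le_iff]
    rintro _ ⟨_, ⟨d, hd0, hd, rfl⟩, rfl⟩
    show qExpandAlgHomC ℚ c (qExpand ℚ d jq) ∈ _
    rw [qExpandAlgHomC_apply, qExpand_qExpand]
    refine jqd_mem_full N' ?_
    refine dvd_trans ?_ h
    rw [mul_comm c d]
    exact Nat.mul_dvd_mul_right hd c
  exact hle ⟨y, hy, rfl⟩

variable (M : ℕ) [NeZero M]

theorem coeffEmb_qExpand_jq (L : Type*) [Field L] [Algebra ℚ L] :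
    coeffEmb L (qExpand ℚ M jq) = qExpand L M (jqModC L) := by
  rw [coeffEmb, coeffMap_qExpand, ← coeffEmb, coeffEmb_jq]

theorem coeffEmb_qExpand_castLS (L : Type*) [Field L] [Algebra ℚ L] (u : LaurentSeries ℤ) :
    coeffEmb L (qExpand ℚ M (castLS ℚ u)) = qExpand L M (castLS L u) := by
  rw [coeffEmb, coeffMap_qExpand, ← coeffEmb, coeffEmb_castLS]

theorem deg_unit {p : ℕ} [Fact p.Prime] {k : Type*} [Field k] [CharP k p] {n : ℕ}
    {u : LaurentSeries ℤ} (h : IsCore M p n u) (f : Fin n → k[X])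
    (hf : ∑ i, aeval (qExpand k M (jqModC k)) (f i) * (qExpand k M (castLS k u)) ^ (i : ℕ) = 0) :
    ∀ i, f i = 0 := by
  apply indep_field h k f
  apply qExpand_injective (R := k) M
  rw [map_zero, ← hf, map_sum]
  refine Finset.sum_congr rfl fun i _ => ?_
  rw [map_mul, map_pow, qExpand_aeval]

/-- `j(t^(M^2))` is a combination of powers of the unit `u(t^M)` over `Kb(j(t^M))` -/
theorem exists_rel_Jp {p : ℕ} [Fact p.Prime] {n : ℕ} {u : LaurentSeries ℤ} (hn : 0 < n)
    (h : IsCoreExt M p n u) :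
    ∃ (g : Kb[X]) (f : Fin n → Kb[X]), aeval (qExpand Kb M (jqModC Kb)) g ≠ 0 ∧
      aeval (qExpand Kb M (jqModC Kb)) g * qExpand Kb M (qExpand Kb M (jqModC Kb)) =
        ∑ i, aeval (qExpand Kb M (jqModC Kb)) (f i) * (qExpand Kb M (castLS Kb u)) ^ (i : ℕ) := by
  have hmem : qExpand Kb M (jqModC Kb) ∈ laurentBaseChange Kb (modularFunctionFieldFull M) := by
    rw [← coeffEmb_qExpand_jq]
    exact coeffEmb_mem_laurentBaseChange _ (jqd_mem_full M dvd_rfl)
  obtain ⟨g, f, hg, hrel⟩ := inSpan_of_mem_baseChange Kb hn h _ hmem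
  refine ⟨g, f, ?_, ?_⟩
  · rw [← qExpand_aeval]
    intro h0
    exact hg (qExpand_injective (R := Kb) M (by rw [h0, map_zero]))
  · have := congrArg (qExpand Kb M) hrel
    rw [map_mul, map_sum, qExpand_aeval] at this
    rw [this]
    refine Finset.sum_congr rfl fun i _ => ?_
    rw [map_mul, map_pow, qExpand_aeval]

end series

section inst

variable (M : ℕ) [NeZero M] (hM : 2 < M) (hM4 : ¬ M ∣ 4) (A : ValuationSubring Kb)

theorem actV_ne_zero {a : Fin 2 → ZMod M} (ha : a ≠ 0) (g : SL(2, ℤ)) : actV M a g ≠ 0 := by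
  intro h0
  apply ha
  have h1 := actV_mul M a g g⁻¹
  rw [mul_inv_cancel, actV_one, h0] at h1
  rw [h1, actV, Matrix.zero_vecMul]

/-- the root of unity `ζ_M⁻¹` as a unit of `A` -/
theorem exists_zeta_unit_inv : ∃ ζ : Aˣ, Units.map (A.subtype : A →* Kb) ζ = (zetKu M)⁻¹ := by
  have hpos : 0 < M := Nat.pos_of_ne_zero (NeZero.ne M)
  have h1 : zetK M ∈ A := mem_of_isIntegral_int A ((isPrimitiveRoot_zetK M).isIntegral hpos)
  have h2 : (zetK M)⁻¹ ∈ A :=
    mem_of_isIntegral_int A ((isPrimitiveRoot_zetK M).inv.isIntegral hpos)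
  have h0 : zetK M ≠ 0 := (isPrimitiveRoot_zetK M).ne_zero (NeZero.ne M)
  refine ⟨⟨⟨(zetK M)⁻¹, h2⟩, ⟨zetK M, h1⟩, Subtype.ext (inv_mul_cancel₀ h0),
    Subtype.ext (mul_inv_cancel₀ h0)⟩, ?_⟩
  apply Units.ext
  show (zetK M)⁻¹ = (((zetKu M)⁻¹ : Kbˣ) : Kb)
  rw [Units.val_inv_eq_inv_val]
  rfl

theorem coe_aeval_FK (y : (lvlY M hM).FK Kb) (q : Kb[X]) :
    ((aeval y q : (lvlY M hM).FK Kb) : LaurentSeries Kb) = aeval (y : LaurentSeries Kb) q :=
  (aeval_algHom_apply ((lvlY M hM).FKf Kb).val y q).symm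

theorem coe_JpK : ((JpK M hM : (lvlY M hM).FK Kb) : LaurentSeries Kb) =
    qExpand Kb M (qExpand Kb M (jqModC Kb)) := by
  have h1 : ((JpK M hM : (lvlY M hM).FK Kb) : LaurentSeries Kb) =
      coeffEmb Kb (qExpand ℚ (M ^ 2) jq) := rfl
  rw [h1, coeffEmb_qExpand_jq, qExpand_qExpand]
  exact qExpand_congr_level (pow_two M) _

variable {p : ℕ} [Fact p.Prime]

/-- **[IY]** the hypotheses of the formal Igusa theorem hold for `lvlY M` at `p ∤ M`. -/
theorem hyp_lvlY (hA : A.LiesOverPrime p) (hpM : ¬ p ∣ M)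
    (hS1 : ∀ a : Fin 2 → ZMod M, a ≠ 0 → ∃ s : LaurentSeries A,
      iota A s = ((yK M hM a : (lvlY M hM).FK Kb) : LaurentSeries Kb))
    (hS2 : ∀ g : SL(2, ℤ), g ∉ PG M → ∃ (a : Fin 2 → ZMod M) (s s' : LaurentSeries A), a ≠ 0 ∧
      iota A s = ((yK M hM a : (lvlY M hM).FK Kb) : LaurentSeries Kb) ∧
      iota A s' = ((yK M hM (actV M a g⁻¹) : (lvlY M hM).FK Kb) : LaurentSeries Kb) ∧
      pi (IsLocalRing.residue A) s ≠ pi (IsLocalRing.residue A) s') :
    ∃ (n : ℕ) (x : LaurentSeries A),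
      Hyp (IsLocalRing.residue A) (qExpand A M (jqModC A)) ((lvlY M hM).FKf Kb) (GF M hM hM4)
        (toGF M hM hM4 ModularGroup.T) n x := by
  obtain ⟨u, U, hcore, hU0, hchar, hne⟩ := exists_family A M hA hpM
  have hchp := charP_residueField A hA
  have hiJ : iota A (qExpand A M (jqModC A)) = coeffEmb Kb (qExpand ℚ M jq) := by
    rw [coeffEmb_qExpand_jq]; exact coeffMap_qExpand_jqModC _ M
  have hpJ : pi (IsLocalRing.residue A) (qExpand A M (jqModC A)) =
      qExpand (IsLocalRing.ResidueField A) M (jqModC (IsLocalRing.ResidueField A)) :=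
    coeffMap_qExpand_jqModC _ M
  have htr : Transcendental (IsLocalRing.ResidueField A)
      (pi (IsLocalRing.residue A) (qExpand A M (jqModC A))) := by
    rw [hpJ]
    exact transcendental_iff_injective.mpr (isMonicPole_qExpand_jqModC _ M).aeval_injective
  have hJmem : iota A (qExpand A M (jqModC A)) ∈ (lvlY M hM).FKf Kb := by
    rw [hiJ, ← coe_JK M hM]; exact (JK M hM).2
  have hJeq : (⟨iota A (qExpand A M (jqModC A)), hJmem⟩ : (lvlY M hM).FK Kb) = JK M hM :=
    Subtype.ext (by rw [coe_JK]; exact hiJ)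
  have hJfix : ∀ g : GF M hM hM4,
      g • (⟨iota A (qExpand A M (jqModC A)), hJmem⟩ : (lvlY M hM).FK Kb) = ⟨_, hJmem⟩ := by
    rintro ⟨_, g, rfl⟩
    rw [hJeq]
    exact rho_JK M hM hM4 g
  have hix : iota A (U (Q.base M)) = qExpand Kb M (castLS Kb u) := by
    rw [hU0, iota, coeffMap_qExpand, coeffMap_castLS]
  have hpx : pi (IsLocalRing.residue A) (U (Q.base M)) =
      qExpand (IsLocalRing.ResidueField A) M (castLS (IsLocalRing.ResidueField A) u) := by
    rw [hU0, pi, coeffMap_qExpand, coeffMap_castLS]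
  have hxmem : iota A (U (Q.base M)) ∈ (lvlY M hM).FKf Kb := by
    rw [hix, ← coeffEmb_qExpand_castLS]
    refine coeffEmb_mem_laurentBaseChange _ (full_le_F₀ M hM ?_)
    exact qExpand_mem_full M (M ^ 2) M (by rw [pow_two]) hcore.u_mem
  refine ⟨Fintype.card (Q M), U (Q.base M),
    { surj := IsLocalRing.residue_surjective
      tr := htr
      J_mem := hJmem
      J_fix := hJfix
      fix := ?_
      T_red := ?_
      x_mem := hxmem
      x_int := isInt_smul_family U hJmem hJfix hchar _ hxmem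
      card := ncard_orbit_family_le U hJmem hJfix hchar _ hxmem
      deg := ?_
      sep := sep_family U hchar _ hne
      stab := ?_
      gen := normalClosure_rho_T M hM hM4
      faith := ?_ }⟩
  · -- fix
    intro y hy
    obtain ⟨P, Q', hQ', h⟩ := exists_rat_of_fixed' M hM hM4 y (fun g => hy (toGF M hM hM4 g))
    exact ⟨P, Q', hQ', by rw [hiJ]; exact h⟩
  · -- T_red
    intro y h0
    obtain ⟨ζ, hζ⟩ := exists_zeta_unit_inv M A
    have hy : (((y : (lvlY M hM).FK Kb)) : LaurentSeries Kb) ∈ bigO (IsLocalRing.residue A) :=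
      (isInt_coe y).mem_bigO htr
    have hcoe : ((((toGF M hM hM4 ModularGroup.T • y :
        ringB (IsLocalRing.residue A) (qExpand A M (jqModC A)) ((lvlY M hM).FKf Kb)
          (GF M hM hM4)) : (lvlY M hM).FK Kb)) : LaurentSeries Kb) =
        RED.ES.rotR (Units.map (A.subtype : A →* Kb) ζ)
          (((y : (lvlY M hM).FK Kb)) : LaurentSeries Kb) := by
      rw [hζ]
      exact coe_rho_T' M hM hM4 (y : (lvlY M hM).FK Kb)
    have h1 := bigRed_rotR (π := IsLocalRing.residue A) ζ hy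
    rw [redB_apply] at h0 ⊢
    rw [h0, map_zero] at h1
    rw [← h1]
    congr 1
    exact Subtype.ext hcoe
  · -- deg
    intro f hf
    rw [hpJ, hpx] at hf
    exact deg_unit M hcore.core f hf
  · -- stab
    rintro ⟨_, b, rfl⟩ hb
    have hb' : rho M hM hM4 b (⟨iota A (U (Q.base M)), hxmem⟩ : (lvlY M hM).FK Kb) =
        ⟨iota A (U (Q.base M)), hxmem⟩ := hb
    obtain ⟨g, f, hg, hrel⟩ := exists_rel_Jp M (card_Q_pos M) hcore
    have hJK : ((JK M hM : (lvlY M hM).FK Kb) : LaurentSeries Kb) = qExpand Kb M (jqModC Kb) := by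
      rw [coe_JK, coeffEmb_qExpand_jq]
    have hrelF : aeval (JK M hM) g * JpK M hM =
        ∑ i, aeval (JK M hM) (f i) *
          (⟨iota A (U (Q.base M)), hxmem⟩ : (lvlY M hM).FK Kb) ^ (i : ℕ) := by
      apply Subtype.ext
      rw [IntermediateField.coe_mul, IntermediateField.coe_sum, coe_aeval_FK, hJK, coe_JpK, hrel]
      refine Finset.sum_congr rfl fun i _ => ?_
      rw [IntermediateField.coe_mul, IntermediateField.coe_pow, coe_aeval_FK, hJK, ← hix]
    have hg' : aeval (JK M hM) g ≠ 0 := by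
      intro h0
      apply hg
      rw [← hJK, ← coe_aeval_FK, h0]
      rfl
    have h1 : rho M hM hM4 b (JpK M hM) = JpK M hM := by
      have h2 := congrArg (rho M hM hM4 b) hrelF
      rw [map_mul, map_sum] at h2
      have h3 : ∀ q : Kb[X], rho M hM hM4 b (aeval (JK M hM) q) = aeval (JK M hM) q := by
        intro q
        have := aeval_algHom_apply ((rho M hM hM4 b : (lvlY M hM).FK Kb ≃ₐ[Kb] _) :
          (lvlY M hM).FK Kb →ₐ[Kb] (lvlY M hM).FK Kb) (JK M hM) q
        rw [AlgEquiv.coe_toAlgHom, rho_JK] at this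
        exact this.symm
      simp only [map_mul, map_pow, h3, hb'] at h2
      rw [← hrelF] at h2
      exact mul_left_cancel₀ hg' h2
    obtain ⟨m, hm⟩ := exists_zpow_of_rho_JpK M hM hM4 b h1
    exact ⟨m, Subtype.ext hm⟩
  · -- faith
    rintro ⟨_, g, rfl⟩ hg1
    have hg : g ∉ PG M := fun h => hg1 (Subtype.ext ((rho_eq_one_iff M hM hM4 g).2 h))
    obtain ⟨a, s, s', ha, hs, hs', hss⟩ := hS2 g hg
    have hyB : yK M hM a ∈ ringB (IsLocalRing.residue A) (qExpand A M (jqModC A))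
        ((lvlY M hM).FKf Kb) (GF M hM hM4) := by
      rintro ⟨_, g', rfl⟩
      obtain ⟨s'', hs''⟩ := hS1 _ (actV_ne_zero M ha g'⁻¹)
      have : (((⟨rho M hM hM4 g', g', rfl⟩ : GF M hM hM4) • yK M hM a : (lvlY M hM).FK Kb) :
          LaurentSeries Kb) = iota A s'' := by
        rw [hs'', ← rho_yK M hM hM4 g' a]
        rfl
      rw [this]
      exact isInt_iota _
    refine ⟨⟨yK M hM a, hyB⟩, ?_⟩
    rw [redB_of_iota htr ⟨yK M hM a, hyB⟩ s hs.symm,
      redB_of_iota htr _ s' (by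
        rw [hs', ← rho_yK M hM hM4 g a]
        rfl)]
    exact hss.symm

end inst

end Fermat.Agent.S48.ModL.Igusa
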