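import Fermat.Agent.S48.ModL.Igusa.Sep
import Fermat.Agent.S48.ModL.KAbs
import Fermat.Agent.S48.ModL.Genus.Kummer

/-!
# S48 / MODL / [R] : (K1) from the formal Igusa theorem and a Kummer basis over a subfield
-/

set_option autoImplicit false
noncomputable section

open ModularCurve AlgebraicCurve Polynomial IntermediateField
open Fermat.Agent.RED Fermat.Agent.RED.Gauss

namespace Fermat.Agent.S48.ModL.Igusa

section incl

variable {L : Type*} [Field L] {A : ValuationSubring L}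
variable {k : Type*} [Field k] {π : A →+* k}
variable {F₁ F : IntermediateField L (LaurentSeries L)}

theorem gFb_le_of (hN₁ : Norm π F₁) (hN : Norm π F) (hle : F₁ ≤ F) : gFb hN₁ ≤ gFb hN := by
  rintro _ ⟨y, rfl⟩
  exact ⟨⟨⟨((y : F₁) : LaurentSeries L), hle (y : F₁).2⟩, y.2⟩, rfl⟩

end incl

local notation "Qb" => AlgebraicClosure ℚ

variable {F₀ : IntermediateField ℚ (LaurentSeries ℚ)}
  {A : ValuationSubring Qb} {k : Type*} [Field k] [IsAlgClosed k] {π : A →+* k}
  {J x : LaurentSeries A}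
  {G : Type*} [Group G] [MulSemiringAction G (laurentBaseChange Qb F₀)]
  [SMulCommClass G Qb (laurentBaseChange Qb F₀)] [Finite G] {T : G} {n : ℕ}

set_option synthInstance.maxHeartbeats 400000 in
set_option maxHeartbeats 1000000 in
/-- **(K1) for the big field**, from Igusa, a Kummer basis over `F₁` and the genus inequality
for `F₁`. -/
theorem Hyp.K1_of_kummer (H : Hyp π J (laurentBaseChange Qb F₀) G T n x)
    {F₁ : IntermediateField Qb (LaurentSeries Qb)} (hN₁ : Norm π F₁) (hJ₁ : iota A J ∈ F₁)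
    [Algebra F₁ (laurentBaseChange Qb F₀)] [IsScalarTower Qb F₁ (laurentBaseChange Qb F₀)]
    [FiniteDimensional F₁ (laurentBaseChange Qb F₀)]
    (h₁ : ∀ z : F₁, ((algebraMap F₁ (laurentBaseChange Qb F₀) z : laurentBaseChange Qb F₀) :
      LaurentSeries Qb) = z)
    (C : Subgroup G)
    (hC : ∀ c ∈ C, ∀ z : F₁, c • algebraMap F₁ (laurentBaseChange Qb F₀) z =
      algebraMap F₁ (laurentBaseChange Qb F₀) z)
    (hcard : Module.finrank F₁ (laurentBaseChange Qb F₀) ≤ Nat.card C)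
    {x₁ : F₁} (hx₁ : IsSepParam Qb x₁)
    (hx₂ : IsSepParam Qb (algebraMap F₁ (laurentBaseChange Qb F₀) x₁))
    {ι : Type*} [Fintype ι] (R : ι → laurentBaseChange Qb F₀)
    (hli : LinearIndependent F₁ R)
    (hcardι : Fintype.card ι = Module.finrank F₁ (laurentBaseChange Qb F₀))
    {r : ℕ} (hr : r ≠ 0) (a : ι → F₁)
    (ha : ∀ i, R i ^ r = algebraMap F₁ (laurentBaseChange Qb F₀) (a i))
    (E : ι → Divisor Qb F₁) (hE : ∀ (i : ι) (v : Place Qb F₁), (r : ℤ) * E i v = v.ord (a i))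
    (hg : gR Qb F₁ ≤ gR k (gFb hN₁)) :
    ∃ (w : Fin (Nat.card G) → LaurentSeries A)
      (HC : CoreData π (laurentBaseChange Qb F₀) (Nat.card G) J w),
      ∀ m : ℕ, (m : k) ≠ 0 → K1 HC.toNorm m := by
  obtain ⟨w, HC, -⟩ := H.exists_coreData
  have hle : F₁ ≤ laurentBaseChange Qb F₀ := fun z hz => by
    have := (algebraMap F₁ (laurentBaseChange Qb F₀) ⟨z, hz⟩).2
    rwa [h₁] at this
  have hle' : gFb hN₁ ≤ gFb HC.toNorm := gFb_le_of hN₁ HC.toNorm hle
  letI : Algebra (gFb hN₁) (gFb HC.toNorm) := (IntermediateField.inclusion hle').toAlgebra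
  haveI : IsScalarTower k (gFb hN₁) (gFb HC.toNorm) :=
    IsScalarTower.of_algebraMap_eq fun c => rfl
  have h₂ : ∀ z : gFb hN₁, ((algebraMap (gFb hN₁) (gFb HC.toNorm) z : gFb HC.toNorm) :
      LaurentSeries k) = z := fun z => rfl
  have hdeg := H.finrank_residue_eq HC.toNorm hN₁ h₁ h₂ C hC hcard
  obtain ⟨ht₁, ht₂⟩ := H.isSepParam_sub HC.toNorm hN₁ hJ₁ h₂
  have hgen : gR Qb (laurentBaseChange Qb F₀) ≤ gR k (gFb HC.toNorm) :=
    gR_le_of_reduction hx₁ hx₂ ht₁ ht₂ R hli hcardι hr a ha E hE hg hdeg.symm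
  exact ⟨w, HC, fun m hm => K1_of_coreData HC hx₂ (H.isSepParam_Jb HC.toNorm) hgen hm⟩

end Fermat.Agent.S48.ModL.Igusa
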