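import Fermat.Agent.S48.ModL.Igusa.K1
import Fermat.Agent.S48.ModL.Igusa.Final
import Fermat.Agent.S48.ModL.F.Dia
import Fermat.Agent.RED.S18Main
import Fermat.Agent.RR.Hurwitz

/-!
# S48 / MODL / [R] : `exists_norm_K1` from the output of [G2]
-/

set_option autoImplicit false
set_option linter.unusedSectionVars false
set_option linter.style.haveILetI false
noncomputable section

open ModularCurve AlgebraicCurve Polynomial IntermediateField CongruenceSubgroup
open scoped MatrixGroups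
open Fermat.Agent.RED.Gauss Fermat.Agent.S24 Fermat.Agent.S28 Fermat.Agent.RED
open Fermat.Agent.S48.ModL.F Fermat.Agent.S48.ModL.Y

namespace Fermat.Agent.S48.ModL.Igusa

set_option synthInstance.maxHeartbeats 400000

variable (M : ℕ) [NeZero M] (hM : 2 < M) (hM4 : ¬ M ∣ 4)

theorem bar_le_FKf : modularFunctionFieldBar (M ^ 2) ≤ (lvlY M hM).FKf Kb :=
  laurentBaseChange_mono_diam (full_le_F₀ M hM)

/-- the inclusion `F₀(M²) ⊆ F_Y(M)` as an algebra structure. -/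
@[reducible] def algBarY : Algebra (FN (M ^ 2)) ((lvlY M hM).FK Kb) :=
  (IntermediateField.inclusion (bar_le_FKf M hM)).toAlgebra

theorem algebraMap_algBarY (z : FN (M ^ 2)) :
    @algebraMap (FN (M ^ 2)) ((lvlY M hM).FK Kb) _ _ (algBarY M hM) z =
      IntermediateField.inclusion (bar_le_FKf M hM) z := rfl

theorem isScalarTower_algBarY :
    letI := algBarY M hM
    IsScalarTower Kb (FN (M ^ 2)) ((lvlY M hM).FK Kb) := by
  letI := algBarY M hM
  refine IsScalarTower.of_algebraMap_eq fun c => ?_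
  rw [algebraMap_algBarY, AlgHom.commutes]

theorem coe_algBarY (z : FN (M ^ 2)) :
    ((@algebraMap (FN (M ^ 2)) ((lvlY M hM).FK Kb) _ _ (algBarY M hM) z : (lvlY M hM).FK Kb) :
      LaurentSeries Kb) = z := by
  rw [algebraMap_algBarY, IntermediateField.coe_inclusion]

/-- the genus inequality at level `M²`. -/
theorem gR_bar_le (h23 : 2 ∣ M ∨ 3 ∣ M) (A : ValuationSubring Kb) {p : ℕ} [Fact p.Prime]
    (hA : A.LiesOverPrime p) (hpM : ¬ p ∣ M ^ 2) :
    gR Kb (modularFunctionFieldBar (M ^ 2)) ≤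
      gR (IsLocalRing.ResidueField A) (gFb (gaussNormBar A (M ^ 2) hA hpM)) := by
  haveI := charP_residueField A hA
  haveI := isAlgClosed_residueField A
  have h49 : 4 ∣ M ^ 2 ∨ 9 ∣ M ^ 2 := by
    rcases h23 with h | h
    · exact Or.inl (pow_dvd_pow_of_dvd h 2)
    · exact Or.inr (pow_dvd_pow_of_dvd h 2)
  have h1 := gen_of_rhRel (M ^ 2) (fun _ _ _ _ _ _ _ _ _ _ _ _ h1 h2 => Fermat.Agent.RR.rhRel h1 h2)
    h49 (IsLocalRing.ResidueField A) hpM
  have h2 : gFb (gaussNormBar A (M ^ 2) hA hpM) =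
      modularFunctionFieldFullC (IsLocalRing.ResidueField A) (M ^ 2) :=
    gFb_eq_fullC (IsLocalRing.residue A) IsLocalRing.residue_surjective (card_Q_pos (M ^ 2))
      (exists_isCoreExt (M ^ 2) p hpM).choose_spec _
  rw [h2]
  exact h1

/-- the output of [G2] (for the algebra structure `algBarY`). -/
def G2Out : Prop :=
  letI := algBarY M hM
  (∃ C : Subgroup (GF M hM hM4),
    (∀ c ∈ C, ∀ z : FN (M ^ 2), c • algebraMap (FN (M ^ 2)) ((lvlY M hM).FK Kb) z =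
      algebraMap (FN (M ^ 2)) ((lvlY M hM).FK Kb) z) ∧
    Module.finrank (FN (M ^ 2)) ((lvlY M hM).FK Kb) ≤ Nat.card C) ∧
  ∃ (I : Type) (_ : Fintype I) (R : I → (lvlY M hM).FK Kb) (r : ℕ) (a : I → FN (M ^ 2))
    (E : I → Divisor Kb (FN (M ^ 2))),
    LinearIndependent (FN (M ^ 2)) R ∧
    Fintype.card I = Module.finrank (FN (M ^ 2)) ((lvlY M hM).FK Kb) ∧ r ≠ 0 ∧
    (∀ i, R i ^ r = algebraMap (FN (M ^ 2)) ((lvlY M hM).FK Kb) (a i)) ∧
    ∀ (i : I) (v : Place Kb (FN (M ^ 2))), (r : ℤ) * E i v = v.ord (a i)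

set_option maxHeartbeats 1000000 in
/-- **Block [R]** from [G2]. -/
theorem exists_norm_K1_of (hG2 : G2Out M hM hM4) (h23 : 2 ∣ M ∨ 3 ∣ M) (p : ℕ) (hp : p.Prime)
    (hpM : ¬ p ∣ M) (A : ValuationSubring Kb) (hA : A.LiesOverPrime p) :
    ∃ hN : Norm (IsLocalRing.residue A) ((lvlY M hM).FKf Kb),
      (∀ m : ℕ, m ≠ 0 → ¬ p ∣ m → K1 hN m) ∧
      ∀ y : gO hN, dia M hM hM4 p • (y : (lvlY M hM).FK Kb) ∈ gO hN := by
  haveI : Fact p.Prime := ⟨hp⟩
  haveI := charP_residueField A hA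
  haveI := isAlgClosed_residueField A
  letI := algBarY M hM
  haveI := isScalarTower_algBarY M hM
  have hpM2 : ¬ p ∣ M ^ 2 := fun h => hpM (hp.dvd_of_dvd_pow h)
  obtain ⟨n, x, H⟩ := exists_hyp_lvlY M hM hM4 A hA hpM
  obtain ⟨⟨C, hC, hcard⟩, I, _, R, r, a, E, hli, hcardI, hr, ha, hE⟩ := hG2
  have hx₁ : IsSepParam Kb (jF (M ^ 2)) := isSepParam_jF (M ^ 2)
  have hjK : algebraMap (FN (M ^ 2)) ((lvlY M hM).FK Kb) (jF (M ^ 2)) = (lvlY M hM).jK Kb := by
    apply Subtype.ext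
    rfl
  have hx₂ : IsSepParam Kb (algebraMap (FN (M ^ 2)) ((lvlY M hM).FK Kb) (jF (M ^ 2))) := by
    rw [hjK]
    exact IsSepParam.of_charZero ((lvlY M hM).isFiniteParam_jK iotaK.toRingHom)
  haveI : FiniteDimensional (FN (M ^ 2)) ((lvlY M hM).FK Kb) :=
    RR.finiteDimensional_of_isSepParam hx₂
  have hJ₁ : iota A (qExpand A M (jqModC A)) ∈ modularFunctionFieldBar (M ^ 2) := by
    rw [iota, coeffMap_qExpand, coeffMap_jqModC]
    exact qExpand_jqModC_mem_baseChange (Dvd.intro_left (M ^ 1) (by ring))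
  obtain ⟨w, HC, hK⟩ := H.K1_of_kummer (gaussNormBar A (M ^ 2) hA hpM2) hJ₁
    (coe_algBarY M hM) C hC hcard hx₁ hx₂ R hli hcardI hr a ha E hE
    (gR_bar_le M h23 A hA hpM2)
  refine ⟨HC.toNorm, fun m _ hm => hK m ?_, fun y => ?_⟩
  · rwa [Ne, CharP.cast_eq_zero_iff (IsLocalRing.ResidueField A) p]
  · rw [dia_smul_eq_toGF]
    exact H.smul_mem_gO HC.toNorm _ y.2

end Fermat.Agent.S48.ModL.Igusa
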