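import Mathlib

/-!
# S48 / MODL / [I] : the inequality `f ≤ n` (pure algebra)
-/

set_option autoImplicit false
noncomputable section

namespace Fermat.Agent.S48.ModL.Igusa

open Cardinal in
theorem finrank_residue_le_pure {F₁ F κ₁ κ : Type*} [Field F₁] [Field F] [Algebra F₁ F]
    [FiniteDimensional F₁ F] [Field κ₁] [Field κ] [Algebra κ₁ κ]
    (O₁ : ValuationSubring F₁) (O : ValuationSubring F) (r₁ : O₁ →+* κ₁) (r : O →+* κ)
    (hr : Function.Surjective r)
    (hc : ∀ a : O₁, ∃ h : algebraMap F₁ F a ∈ O, r ⟨_, h⟩ = algebraMap κ₁ κ (r₁ a)) :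
    Module.Finite κ₁ κ ∧ Module.finrank κ₁ κ ≤ Module.finrank F₁ F := by
  classical
  have claim : ∀ s : Finset κ, (LinearIndependent κ₁ fun z : s => (z : κ)) →
      s.card ≤ Module.finrank F₁ F := by
    intro s hli
    set y : κ → O := Function.surjInv hr with hy
    have hry : ∀ z, r (y z) = z := Function.surjInv_eq hr
    have hliF : LinearIndependent F₁ (fun z : s => ((y z : O) : F)) := by
      rw [Fintype.linearIndependent_iff]
      intro c hc0
      by_contra hcon
      push Not at hcon
      obtain ⟨z₁, hz₁⟩ := hcon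
      obtain ⟨z₀, -, hmax⟩ := Finset.exists_max_image Finset.univ
        (fun z : s => O₁.valuation (c z)) ⟨z₁, Finset.mem_univ _⟩
      have hv1 : O₁.valuation (c z₁) ≠ 0 := (Valuation.ne_zero_iff _).mpr hz₁
      have hv0 : O₁.valuation (c z₀) ≠ 0 := by
        intro h0
        have := hmax z₁ (Finset.mem_univ _)
        rw [h0] at this
        exact hv1 (le_antisymm this zero_le)
      have hz₀ : c z₀ ≠ 0 := (Valuation.ne_zero_iff _).mp hv0
      have hd : ∀ z : s, c z / c z₀ ∈ O₁ := by
        intro z
        rw [← O₁.valuation_le_one_iff, map_div₀]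
        exact div_le_one_of_le₀ (hmax z (Finset.mem_univ _)) zero_le
      have hsum : ∑ z : s, (⟨algebraMap F₁ F (c z / c z₀), (hc ⟨_, hd z⟩).choose⟩ : O) * y z = 0 := by
        apply Subtype.ext
        rw [AddSubmonoidClass.coe_finsetSum]
        simp only [MulMemClass.coe_mul, ZeroMemClass.coe_zero]
        have h1 : ∑ z : s, algebraMap F₁ F (c z / c z₀) * ((y z : O) : F) =
            algebraMap F₁ F (c z₀)⁻¹ * ∑ z : s, c z • ((y z : O) : F) := by
          rw [Finset.mul_sum]
          refine Finset.sum_congr rfl fun z _ => ?_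
          rw [Algebra.smul_def, ← mul_assoc, ← map_mul]
          congr 2
          rw [div_eq_mul_inv, mul_comm]
        rw [h1, hc0, mul_zero]
      have h2 := congrArg r hsum
      rw [map_sum, map_zero] at h2
      have h3 := Fintype.linearIndependent_iff.mp hli (fun z => r₁ ⟨_, hd z⟩) (by
        rw [← h2]
        refine Finset.sum_congr rfl fun z _ => ?_
        rw [map_mul, (hc ⟨_, hd z⟩).choose_spec, hry, Algebra.smul_def]) z₀
      have h4 : (⟨c z₀ / c z₀, hd z₀⟩ : O₁) = 1 := Subtype.ext (div_self hz₀)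
      simp only [h4, map_one] at h3
      exact one_ne_zero h3
    have := hliF.fintype_card_le_finrank
    rwa [Fintype.card_coe] at this
  have hrank : Module.rank κ₁ κ ≤ (Module.finrank F₁ F : ℕ) := rank_le claim
  have hfin : Module.Finite κ₁ κ :=
    Module.rank_lt_aleph0_iff.mp (lt_of_le_of_lt hrank (natCast_lt_aleph0))
  exact ⟨hfin, Module.finrank_le_of_rank_le hrank⟩

end Fermat.Agent.S48.ModL.Igusa
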