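import Fermat.Agent.S48.ModL.Igusa.NormK1
import Fermat.Agent.S48.ModL.Genus.Resolvent

/-!
# S48 / MODL / [R] : `exists_norm_K1`, unconditionally
-/

set_option autoImplicit false
set_option linter.unusedSectionVars false
set_option linter.style.haveILetI false
noncomputable section

open ModularCurve AlgebraicCurve Polynomial IntermediateField CongruenceSubgroup
open scoped MatrixGroups
open Fermat.Agent.RED.Gauss Fermat.Agent.S24 Fermat.Agent.S28 Fermat.Agent.RED
open Fermat.Agent.S48.ModL.F Fermat.Agent.S48.ModL.Y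

namespace Fermat.Agent.S48.ModL.Igusa

set_option synthInstance.maxHeartbeats 400000

variable (M : ℕ) [NeZero M] (hM : 2 < M) (hM4 : ¬ M ∣ 4)

theorem g2Out (h23 : 2 ∣ M ∨ 3 ∣ M) : G2Out M hM hM4 := by
  letI := algBarY M hM
  haveI := isScalarTower_algBarY M hM
  exact ⟨⟨Genus.CY M hM hM4,
    fun c hc z => Genus.smul_algebraMap_of_mem_CY M hM hM4 (coe_algBarY M hM) c hc z,
    (Genus.finrank_eq_card_CY M hM hM4 (coe_algBarY M hM)).le⟩,
    Genus.exists_kummer_basis M hM hM4 (coe_algBarY M hM) h23⟩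

/-- **Block [R]**. -/
theorem exists_norm_K1 (h23 : 2 ∣ M ∨ 3 ∣ M) (p : ℕ) (hp : p.Prime) (hpM : ¬ p ∣ M)
    (A : ValuationSubring Kb) (hA : A.LiesOverPrime p) :
    ∃ hN : Norm (IsLocalRing.residue A) ((lvlY M hM).FKf Kb),
      (∀ m : ℕ, m ≠ 0 → ¬ p ∣ m → K1 hN m) ∧
      ∀ y : gO hN, dia M hM hM4 p • (y : (lvlY M hM).FK Kb) ∈ gO hN :=
  exists_norm_K1_of M hM hM4 (g2Out M hM hM4 h23) h23 p hp hpM A hA

end Fermat.Agent.S48.ModL.Igusa
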