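import Fermat.Agent.S48.ModL.Igusa.Stable
import Fermat.Agent.S48.ModL.Igusa.Degree
import Fermat.Agent.S48.ModL.Igusa.Pure
import Fermat.Agent.RED.FF.Param

/-!
# S48 / MODL / [I] : the residue field of the Gauss valuation
-/

set_option autoImplicit false
noncomputable section

open ModularCurve Polynomial
open Fermat.Agent.RED.Gauss

namespace Fermat.Agent.S48.ModL.Igusa

section pure

variable (K E G : Type*) [Field K] [Field E] [Algebra K E] [Group G] [Finite G]
  [MulSemiringAction G E] [SMulCommClass G K E] [FaithfulSMul G E]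

theorem finrank_fixed_mul_card :
    Module.finrank K (FixedPoints.intermediateField G : IntermediateField K E) * Nat.card G =
      Module.finrank K E := by
  cases nonempty_fintype G
  rw [← Module.finrank_mul_finrank K (FixedPoints.intermediateField G : IntermediateField K E) E,
    Nat.card_eq_fintype_card]
  congr 1
  exact (FixedPoints.finrank_eq_card G E).symm

theorem card_le_finrank_of_faithful [FiniteDimensional K E] :
    Nat.card G ≤ Module.finrank K E := by
  rw [← finrank_fixed_mul_card K E G]
  exact Nat.le_mul_of_pos_left _ Module.finrank_pos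

theorem isGalois_of_finrank_le [FiniteDimensional K E] (h : Module.finrank K E ≤ Nat.card G) :
    IsGalois K E := by
  have h1 := finrank_fixed_mul_card K E G
  have hpos : 0 < Nat.card G := Nat.card_pos
  have h2 : Module.finrank K (FixedPoints.intermediateField G : IntermediateField K E) = 1 := by
    have h3 : 0 < Module.finrank K (FixedPoints.intermediateField G : IntermediateField K E) :=
      Module.finrank_pos
    nlinarith
  have h4 : (FixedPoints.intermediateField G : IntermediateField K E) = ⊥ :=
    IntermediateField.finrank_eq_one_iff.mp h2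
  rw [← isGalois_iff_isGalois_bot, ← h4]
  exact IsGalois.of_fixed_field E G

open IntermediateField in
theorem isSepParam_of_action {k : Type*} [Field k] [Algebra k E] [SMulCommClass G k E]
    (tE : E) (htr : Transcendental k tE) (hfix : ∀ g : G, g • tE = tE)
    (wE : Fin (Nat.card G) → E)
    (h : ∀ z : E, ∃ (q : k[X]) (q' : Fin (Nat.card G) → k[X]), aeval tE q ≠ 0 ∧
      z * aeval tE q = ∑ i, aeval tE (q' i) * wE i) : RED.IsSepParam k tE := by
  have hs := span_eq_top_of tE wE h
  have hfin : Module.Finite k⟮tE⟯ E := finite_of_span tE wE hs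
  have hle := finrank_le_of_span tE wE hs
  have hfix' : k⟮tE⟯ ≤ FixedPoints.intermediateField G := adjoin_simple_le_iff.mpr hfix
  have : SMulCommClass G k⟮tE⟯ E := ⟨fun g c z => by
    rw [Algebra.smul_def, Algebra.smul_def, smul_mul']
    congr 1
    exact hfix' c.2 g⟩
  exact ⟨⟨htr, hfin⟩, (isGalois_of_finrank_le k⟮tE⟯ E G hle).to_isSeparable⟩

end pure

variable {L : Type*} [Field L] {A : ValuationSubring L}
variable {k : Type*} [Field k] {π : A →+* k} {J : LaurentSeries A}
variable {F : IntermediateField L (LaurentSeries L)}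
variable {G : Type*} [Group G] [MulSemiringAction G F] [SMulCommClass G L F]

namespace Hyp

variable {T : G} {n : ℕ} {x : LaurentSeries A} (H : Hyp π J F G T n x)
include H

variable [Finite G]

/-- the action of `g` on the Gauss ring -/
def actO (hN : Norm π F) (g : G) : gO hN →+* gO hN where
  toFun y := ⟨g • (y : F), H.smul_mem_gO hN g y.2⟩
  map_one' := Subtype.ext (smul_one g)
  map_mul' y z := Subtype.ext (smul_mul' g (y : F) (z : F))
  map_zero' := Subtype.ext (smul_zero g)
  map_add' y z := Subtype.ext (smul_add g (y : F) (z : F))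

theorem coe_actO (hN : Norm π F) (g : G) (y : gO hN) : ((H.actO hN g y : gO hN) : F) = g • (y : F) :=
  rfl

/-- the action of `g` on the residue field -/
def resHom (hN : Norm π F) (g : G) : gFb hN →+* gFb hN :=
  (gRedF hN).liftOfRightInverse _ (Function.rightInverse_surjInv (gRedF_surjective hN))
    ⟨(gRedF hN).comp (H.actO hN g), fun y hy => by
      rw [RingHom.mem_ker] at hy ⊢
      apply Subtype.ext
      exact H.gRed_smul_eq_zero hN g y (congrArg Subtype.val hy)⟩

theorem resHom_gRedF (hN : Norm π F) (g : G) (y : gO hN) :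
    H.resHom hN g (gRedF hN y) = gRedF hN (H.actO hN g y) :=
  RingHom.liftOfRightInverse_comp_apply _ _ _ _ _

/-- the action of `G` on the residue field -/
def resAct (hN : Norm π F) : MulSemiringAction G (gFb hN) where
  smul g z := H.resHom hN g z
  one_smul z := by
    obtain ⟨y, rfl⟩ := gRedF_surjective hN z
    show H.resHom hN 1 _ = _
    rw [resHom_gRedF]
    congr 1
    exact Subtype.ext (one_smul G (y : F))
  mul_smul g h z := by
    obtain ⟨y, rfl⟩ := gRedF_surjective hN z
    show H.resHom hN (g * h) _ = H.resHom hN g (H.resHom hN h _)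
    rw [resHom_gRedF, resHom_gRedF, resHom_gRedF]
    congr 1
    exact Subtype.ext (mul_smul g h (y : F))
  smul_zero g := map_zero (H.resHom hN g)
  smul_add g := map_add (H.resHom hN g)
  smul_one g := map_one (H.resHom hN g)
  smul_mul g := map_mul (H.resHom hN g)

theorem resAct_smul (hN : Norm π F) (g : G) (y : gO hN) :
    letI := H.resAct hN
    g • gRedF hN y = gRedF hN (H.actO hN g y) := H.resHom_gRedF hN g y

theorem resAct_faithful (hN : Norm π F) :
    letI := H.resAct hN
    FaithfulSMul G (gFb hN) := by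
  letI := H.resAct hN
  refine ⟨fun {g₁ g₂} h => ?_⟩
  by_contra hne
  have hne' : g₂⁻¹ * g₁ ≠ 1 := by
    intro h1
    exact hne (by rw [← mul_one g₂, ← h1, mul_inv_cancel_left])
  obtain ⟨y, hy⟩ := H.faith _ hne'
  apply hy
  have hyO : (y : F) ∈ gO hN := (isInt_coe y).mem_bigO H.tr
  have h1 := h (gRedF hN ⟨y, hyO⟩)
  have h2 : (g₂⁻¹ * g₁) • gRedF hN ⟨y, hyO⟩ = gRedF hN ⟨y, hyO⟩ := by
    rw [mul_smul, h1, inv_smul_smul]
  rw [H.resAct_smul] at h2
  exact congrArg Subtype.val h2

theorem resAct_algebraMap (hN : Norm π F) (g : G) (c : k) :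
    letI := H.resAct hN
    g • algebraMap k (gFb hN) c = algebraMap k (gFb hN) c := by
  letI := H.resAct hN
  obtain ⟨a, rfl⟩ := H.surj c
  rw [← gRedF_algebraMap hN a, H.resAct_smul]
  congr 1
  exact Subtype.ext (smul_algebraMap g (a : L))

theorem resAct_smulCommClass (hN : Norm π F) :
    letI := H.resAct hN
    SMulCommClass G k (gFb hN) := by
  letI := H.resAct hN
  refine ⟨fun g c z => ?_⟩
  rw [Algebra.smul_def, Algebra.smul_def, smul_mul', H.resAct_algebraMap]

/-- the reduction of `J`, in the residue field -/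
def Jb (hN : Norm π F) : gFb hN :=
  gRedF hN ⟨⟨iota A J, H.J_mem⟩, integral_mem_gO hN H.J_mem⟩

theorem coe_Jb (hN : Norm π F) : ((H.Jb hN : gFb hN) : LaurentSeries k) = pi π J :=
  gRed_integral hN H.J_mem

theorem resAct_Jb (hN : Norm π F) (g : G) :
    letI := H.resAct hN
    g • H.Jb hN = H.Jb hN := by
  letI := H.resAct hN
  rw [Jb, H.resAct_smul]
  congr 1
  exact Subtype.ext (H.J_fix g)

/-- **the reduction of `J` is a separating parameter of the residue field** -/
theorem isSepParam_Jb (hN : Norm π F) : RED.IsSepParam k (H.Jb hN) := by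
  obtain ⟨w, HC, -⟩ := H.exists_coreData
  letI := H.resAct hN
  have := H.resAct_faithful hN
  have := H.resAct_smulCommClass hN
  refine isSepParam_of_action (gFb hN) G (H.Jb hN) ?_ (H.resAct_Jb hN) (wb HC hN)
    (exists_residue_comb HC hN)
  refine transcendental_iff.mpr fun p hp => transcendental_iff.mp H.tr p ?_
  rw [← coe_aeval_tb HC hN, show aeval (tb HC hN) p = 0 from hp]
  rfl

/-- **residue degrees** -/
theorem finrank_residue_eq (hN : Norm π F) {F₁ : IntermediateField L (LaurentSeries L)}
    (hN₁ : Norm π F₁) [Algebra F₁ F] [FiniteDimensional F₁ F]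
    (h₁ : ∀ z : F₁, ((algebraMap F₁ F z : F) : LaurentSeries L) = z)
    [Algebra (gFb hN₁) (gFb hN)]
    (h₂ : ∀ z : gFb hN₁, ((algebraMap (gFb hN₁) (gFb hN) z : gFb hN) : LaurentSeries k) = z)
    (C : Subgroup G) (hC : ∀ c ∈ C, ∀ z : F₁, c • algebraMap F₁ F z = algebraMap F₁ F z)
    (hcard : Module.finrank F₁ F ≤ Nat.card C) :
    Module.finrank (gFb hN₁) (gFb hN) = Module.finrank F₁ F := by
  have hmem : ∀ a : gO hN₁, algebraMap F₁ F a ∈ gO hN := fun a => by
    rw [mem_gO, h₁]; exact a.2
  have hcompat : ∀ a : gO hN₁, gRedF hN ⟨_, hmem a⟩ =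
      algebraMap (gFb hN₁) (gFb hN) (gRedF hN₁ a) := by
    intro a
    apply Subtype.ext
    rw [h₂]
    show bigRed π _ = bigRed π _
    congr 1
    exact Subtype.ext (h₁ a)
  obtain ⟨hfin, hle⟩ := finrank_residue_le_pure (gO hN₁) (gO hN) (gRedF hN₁) (gRedF hN)
    (gRedF_surjective hN) (fun a => ⟨hmem a, hcompat a⟩)
  letI := H.resAct hN
  have hfaith := H.resAct_faithful hN
  have : FaithfulSMul C (gFb hN) := ⟨fun {c₁ c₂} h => Subtype.ext (hfaith.eq_of_smul_eq_smul h)⟩
  have : SMulCommClass C (gFb hN₁) (gFb hN) := ⟨fun c a z => by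
    rw [Algebra.smul_def, Algebra.smul_def, smul_mul']
    congr 1
    obtain ⟨y, rfl⟩ := gRedF_surjective hN₁ a
    rw [← hcompat]
    show (c : G) • gRedF hN ⟨_, hmem y⟩ = gRedF hN ⟨_, hmem y⟩
    rw [H.resAct_smul]
    congr 1
    exact Subtype.ext (hC c c.2 y)⟩
  exact le_antisymm hle (hcard.trans (card_le_finrank_of_faithful (gFb hN₁) (gFb hN) C))

end Hyp

end Fermat.Agent.S48.ModL.Igusa
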