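import Fermat.Agent.S48.ModL.Igusa.Residue

/-!
# S48 / MODL / [I] : separating parameters of subfields of the residue field
-/

set_option autoImplicit false
noncomputable section

open ModularCurve Polynomial IntermediateField
open Fermat.Agent.RED.Gauss

namespace Fermat.Agent.S48.ModL.Igusa

/-- a separating parameter of a big field lying in a subfield is a separating parameter of the
subfield -/
theorem isSepParam_of_algebraMap {K E₁ E : Type*} [Field K] [Field E₁] [Field E] [Algebra K E₁]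
    [Algebra K E] [Algebra E₁ E] [IsScalarTower K E₁ E] (t : E₁)
    (h : RED.IsSepParam K (algebraMap E₁ E t)) : RED.IsSepParam K t := by
  have htr : Transcendental K t :=
    (transcendental_algebraMap_iff (algebraMap E₁ E).injective).mp h.transcendental
  let f : E₁ →ₐ[K] E := IsScalarTower.toAlgHom K E₁ E
  have hmap : (K⟮t⟯).map f = K⟮algebraMap E₁ E t⟯ := by
    rw [IntermediateField.adjoin_map, Set.image_singleton]
    rfl
  let e : K⟮t⟯ ≃ₐ[K] K⟮algebraMap E₁ E t⟯ :=
    (IntermediateField.equivMap K⟮t⟯ f).trans (IntermediateField.equivOfEq hmap)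
  have hcomp : (algebraMap K⟮t⟯ E).comp (e.symm : K⟮algebraMap E₁ E t⟯ ≃+* K⟮t⟯).toRingHom =
      (RingEquiv.refl E).toRingHom.comp (algebraMap K⟮algebraMap E₁ E t⟯ E) := by
    ext z
    obtain ⟨y, rfl⟩ := e.surjective z
    simp only [RingHom.comp_apply]
    show algebraMap K⟮t⟯ E (e.symm (e y)) = ((e y : K⟮algebraMap E₁ E t⟯) : E)
    rw [AlgEquiv.symm_apply_apply]
    rfl
  have := h.finite
  have := h.separable
  have h1 : Module.Finite K⟮t⟯ E :=
    Module.Finite.of_equiv_equiv (e.symm : K⟮algebraMap E₁ E t⟯ ≃+* K⟮t⟯) (RingEquiv.refl E) hcomp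
  have h2 : Algebra.IsSeparable K⟮t⟯ E :=
    Algebra.IsSeparable.of_equiv_equiv (e.symm : K⟮algebraMap E₁ E t⟯ ≃+* K⟮t⟯)
      (RingEquiv.refl E) hcomp
  exact ⟨⟨htr, FiniteDimensional.left K⟮t⟯ E₁ E⟩,
    Algebra.isSeparable_tower_bot_of_isSeparable K⟮t⟯ E₁ E⟩

variable {L : Type*} [Field L] {A : ValuationSubring L}
variable {k : Type*} [Field k] {π : A →+* k} {J : LaurentSeries A}
variable {F : IntermediateField L (LaurentSeries L)}
variable {G : Type*} [Group G] [MulSemiringAction G F] [SMulCommClass G L F] [Finite G]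
variable {T : G} {n : ℕ} {x : LaurentSeries A}

/-- the reduction of `J` is a separating parameter of the residue field of every subfield
containing `J`, and of the big residue field -/
theorem Hyp.isSepParam_sub (H : Hyp π J F G T n x) (hN : Norm π F)
    {F₁ : IntermediateField L (LaurentSeries L)} (hN₁ : Norm π F₁) (hJ₁ : iota A J ∈ F₁)
    [Algebra (gFb hN₁) (gFb hN)] [IsScalarTower k (gFb hN₁) (gFb hN)]
    (h₂ : ∀ z : gFb hN₁, ((algebraMap (gFb hN₁) (gFb hN) z : gFb hN) : LaurentSeries k) = z) :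
    RED.IsSepParam k (gRedF hN₁ ⟨⟨iota A J, hJ₁⟩, integral_mem_gO hN₁ hJ₁⟩) ∧
    RED.IsSepParam k (algebraMap (gFb hN₁) (gFb hN)
      (gRedF hN₁ ⟨⟨iota A J, hJ₁⟩, integral_mem_gO hN₁ hJ₁⟩)) := by
  have h1 : algebraMap (gFb hN₁) (gFb hN)
      (gRedF hN₁ ⟨⟨iota A J, hJ₁⟩, integral_mem_gO hN₁ hJ₁⟩) = H.Jb hN := by
    apply Subtype.ext
    rw [h₂, H.coe_Jb]
    exact gRed_integral hN₁ hJ₁
  have h2 : RED.IsSepParam k (algebraMap (gFb hN₁) (gFb hN)
      (gRedF hN₁ ⟨⟨iota A J, hJ₁⟩, integral_mem_gO hN₁ hJ₁⟩)) := by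
    rw [h1]; exact H.isSepParam_Jb hN
  exact ⟨isSepParam_of_algebraMap _ h2, h2⟩

end Fermat.Agent.S48.ModL.Igusa
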