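import Fermat.Agent.S48.ModL.Igusa.Data

/-!
# S48 / MODL / [I] : the group preserves the Gauss valuation ring
-/

set_option autoImplicit false
noncomputable section

open ModularCurve Polynomial
open Fermat.Agent.RED.Gauss

namespace Fermat.Agent.S48.ModL.Igusa

variable {L : Type*} [Field L] {A : ValuationSubring L}
variable {k : Type*} [Field k] {π : A →+* k} {J : LaurentSeries A}
variable {F : IntermediateField L (LaurentSeries L)}
variable {G : Type*} [Group G] [MulSemiringAction G F] [SMulCommClass G L F]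

namespace Hyp

variable {T : G} {n : ℕ} {x : LaurentSeries A} (H : Hyp π J F G T n x)
include H

variable [Finite G]

/-- every non-zero element of `F` is `c * b / s` with `b ∈ B` of non-zero reduction and `s` a
primitive polynomial in `J` -/
theorem exists_frac_ringB (y : F) (hy0 : y ≠ 0) :
    ∃ (c : L) (b : ringB π J F G) (β : LaurentSeries A) (p : A[X]), c ≠ 0 ∧ p.map π ≠ 0 ∧
      ((b : F) : LaurentSeries L) = iota A β ∧ pi π β ≠ 0 ∧
      y * polyF H.J_mem p = algebraMap L F c * (b : F) := by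
  obtain ⟨w, HC, hwB⟩ := H.exists_coreData
  obtain ⟨g₀, f, hg, hgf⟩ := HC.span y y.2
  have hy0' : (y : LaurentSeries L) ≠ 0 := fun h => hy0 (Subtype.ext h)
  have hf : ∃ i, f i ≠ 0 := by
    by_contra hcon
    push Not at hcon
    have : aeval (iota A J) g₀ * (y : LaurentSeries L) = 0 := by
      rw [hgf]; exact Finset.sum_eq_zero fun i _ => by rw [hcon i]; simp
    exact (mul_ne_zero (HC.aeval_iota_ne_zero hg) hy0') this
  obtain ⟨c, p, hc, hp, h1⟩ := HC.exists_norm_poly hg
  obtain ⟨c', p', hc', hp', h2⟩ := HC.exists_norm_comb hf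
  set bF : F := ∑ i, polyF H.J_mem (p' i) * ⟨iota A (w i), (hwB i).choose⟩ with hbF
  have hbB : bF ∈ ringB π J F G :=
    Subring.sum_mem _ fun i _ => Subring.mul_mem _
      ((polyB (π := π) H.J_mem H.J_fix (p' i) : FixedPoints.subring (ringB π J F G) G) :
        ringB π J F G).2 (hwB i).choose_spec
  have hbcoe : (bF : LaurentSeries L) = iota A (comb J w p') := by
    rw [hbF, IntermediateField.coe_sum, comb, map_sum]
    refine Finset.sum_congr rfl fun i _ => ?_
    rw [IntermediateField.coe_mul, coe_polyF, map_mul]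
  refine ⟨c⁻¹ * c', ⟨bF, hbB⟩, comb J w p', p, mul_ne_zero (inv_ne_zero hc) hc', hp, hbcoe,
    HC.pi_comb_ne_zero hp', ?_⟩
  apply Subtype.ext
  rw [IntermediateField.coe_mul, IntermediateField.coe_mul, coe_polyF, coe_algebraMap]
  show _ = _ * (bF : LaurentSeries L)
  rw [hbcoe]
  rw [h1, h2] at hgf
  have hcL : algebraMap L (LaurentSeries L) c ≠ 0 := by rw [Ne, map_eq_zero]; exact hc
  rw [map_mul, map_inv₀, mul_assoc, ← hgf]
  field_simp

/-- `G` preserves the big Gauss ring and the kernel of the reduction -/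
theorem smul_mem_bigO (g : G) (y : F) (hy : (y : LaurentSeries L) ∈ bigO π) :
    ∃ h : ((g • y : F) : LaurentSeries L) ∈ bigO π,
      bigRed π ⟨_, hy⟩ = 0 → bigRed π ⟨_, h⟩ = 0 := by
  by_cases hy0 : y = 0
  · subst hy0
    refine ⟨by rw [smul_zero]; exact Subring.zero_mem _, fun _ => ?_⟩
    have : (⟨((g • (0 : F) : F) : LaurentSeries L), by rw [smul_zero]; exact Subring.zero_mem _⟩ :
        bigO π) = 0 :=
      Subtype.ext (show ((g • (0 : F) : F) : LaurentSeries L) = 0 by rw [smul_zero]; rfl)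
    rw [this, map_zero]
  obtain ⟨c, b, β, p, hc, hp, hbβ, hβ, h⟩ := H.exists_frac_ringB y hy0
  have hpne := pi_evA_ne_zero_of H.tr hp
  have h' : (y : LaurentSeries L) * iota A (evA J p) =
      algebraMap L (LaurentSeries L) c * iota A β := by
    have := congrArg (fun z : F => (z : LaurentSeries L)) h
    simp only [IntermediateField.coe_mul, coe_polyF, coe_algebraMap, hbβ] at this
    exact this
  have hcA : c ∈ A := by
    by_contra hcA
    have hc' : c⁻¹ ∈ A := (A.mem_or_inv_mem c).resolve_left hcA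
    have h0 : π ⟨c⁻¹, hc'⟩ = 0 :=
      residue_eq_zero_of_inv_not_mem H.surj hc' (by rwa [inv_inv])
    have h1 : (⟨iota A (cA A ⟨c⁻¹, hc'⟩ * evA J p), iota_mem_bigO π _⟩ : bigO π) * ⟨_, hy⟩ =
        ⟨iota A β, iota_mem_bigO π _⟩ := by
      apply Subtype.ext
      show iota A (cA A ⟨c⁻¹, hc'⟩ * evA J p) * (y : LaurentSeries L) = iota A β
      rw [map_mul, iota_cA, mul_assoc, mul_comm (iota A (evA J p)), h', ← mul_assoc, ← map_mul]
      simp [inv_mul_cancel₀ hc]
    have h2 := congrArg (bigRed π) h1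
    rw [map_mul, bigRed_iota, bigRed_iota, map_mul, pi_cA, h0, map_zero, zero_mul, zero_mul] at h2
    exact hβ h2.symm
  -- apply `g`
  have hg : (g • y) * polyF H.J_mem p = algebraMap L F c * (g • (b : F)) := by
    have := congrArg (fun z : F => g • z) h
    rw [show g • (y * polyF H.J_mem p) = (g • y) * (g • polyF H.J_mem p) from smul_mul' _ _ _,
      show g • (algebraMap L F c * (b : F)) = (g • algebraMap L F c) * (g • (b : F)) from
        smul_mul' _ _ _, smul_polyF H.J_mem H.J_fix, smul_algebraMap] at this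
    exact this
  obtain ⟨q, a, hq, ha⟩ := b.2 g
  have hqne := pi_evA_ne_zero_of H.tr hq
  have hrel : ((g • y : F) : LaurentSeries L) * iota A (evA J p * evA J q) =
      iota A (cA A ⟨c, hcA⟩ * a) := by
    have := congrArg (fun z : F => (z : LaurentSeries L)) hg
    simp only [IntermediateField.coe_mul, coe_polyF, coe_algebraMap] at this
    rw [map_mul, ← mul_assoc, this, map_mul, iota_cA, ← ha]
    ring
  have hne : pi π (evA J p * evA J q) ≠ 0 := by rw [map_mul]; exact mul_ne_zero hpne hqne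
  have hmem : ((g • y : F) : LaurentSeries L) ∈ bigO π := (mem_bigO π).mpr ⟨_, _, hne, hrel⟩
  refine ⟨hmem, fun h0 => ?_⟩
  rw [bigRed_eq π ⟨_, hy⟩ (a := cA A ⟨c, hcA⟩ * β) (b := evA J p) hpne
    (by rw [map_mul, iota_cA]; exact h'), map_mul, pi_cA, div_eq_zero_iff] at h0
  have hπc : π ⟨c, hcA⟩ = 0 := by
    rcases h0 with h0 | h0
    · rcases mul_eq_zero.mp h0 with h0 | h0
      · exact (map_eq_zero _).mp h0
      · exact absurd h0 hβ
    · exact absurd h0 hpne
  rw [bigRed_eq π ⟨_, hmem⟩ hne hrel, map_mul, pi_cA, hπc]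
  simp

theorem smul_mem_gO (hN : Norm π F) (g : G) {y : F} (hy : y ∈ gO hN) : g • y ∈ gO hN :=
  (H.smul_mem_bigO g y hy).choose

theorem gRed_smul_eq_zero (hN : Norm π F) (g : G) (y : gO hN) (h0 : gRed hN y = 0) :
    gRed hN ⟨g • (y : F), H.smul_mem_gO hN g y.2⟩ = 0 :=
  (H.smul_mem_bigO g y y.2).choose_spec h0

end Hyp

end Fermat.Agent.S48.ModL.Igusa
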